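import Fermat.Agent.ML.TWFree.Box
import Fermat.Agent.ML.TWFree.Inst.NR
import Fermat.Agent.ML.TWFree.Inst.InBox

/-!
# ML / Lift / Base / Pull : **[BASE-PULL]** a big Galois stable subgroup from the WHOLE box at the true level

`L'` ANY base level (rigid or not), `hC : IsCube .. L' qv τ`, `MTW0` at `L'`.

* `cogen0`, `size0`, `box0` : the numerics of `TWFree.twfree` for `MTW0` (no rigidity) and ALL `t` (`t = 0` allowed);
* `boxSub` : the box `Xnew(L')[p^a, z^a]` as a subgroup; it is Galois stable;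
* `exists_pull` : `u : J₀(lev L' qv univ) → J₀(N)` additive, equivariant, injective on the `θ`-part, respecting the `θ`-parts,
  `W(L') ≠ 0`, `m ≤ a`  ⟹  `G := u(box)` is `≤ thetaPart N`, Galois stable, killed by `p^a` and `z(τ_i)^a`, and `p^(m^(t+1)) ≤ #G`.
-/

set_option autoImplicit false
set_option linter.unusedSectionVars false
set_option linter.style.haveILetI false

noncomputable section

open AlgebraicCurve ModularCurve

namespace Fermat.Agent.ML.Lift.Base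

open Fermat.Agent.RIB Fermat.Agent.GAL Fermat.Agent.GAL.PC Fermat.Agent.ML.TWFree

local notation "Qbar" => AlgebraicClosure ℚ
local notation "GQ" => (AlgebraicClosure ℚ ≃ₐ[ℚ] AlgebraicClosure ℚ)
local notation "M₂" => Matrix (Fin 2) (Fin 2)

variable {p : ℕ} [Fact p.Prime] {T : Finset ℕ} {θ : ℕ → ℤ} {rbar0 : GQ →* M₂ (ZMod p)}
  {L' t n : ℕ} [NeZero L'] {qv : Fin t → Nat.Primes} {τ : Fin t → GQ}

/-- **COGEN** without rigidity. -/
theorem cogen0 (hC : IsCube p (↑(cutS T qv) : Set ℕ) θ L' qv τ) (EC : MCtx p T θ rbar0)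
    (TC : MTW0 p T θ L' t n qv) (hτ : ∀ i, rbar0 (τ i) = 1) :
    Nat.card {x : JZero (lev L' qv Finset.univ) //
        x ∈ Xnew p (↑(cutS T qv) : Set ℕ) θ L' qv Finset.univ ∧ p • x = 0 ∧
          ∀ i, TWLoc.zop (τ i) x = 0} ≤
      p ^ (2 ^ t * Module.finrank (ZMod p) ↥(WS L' p (↑(cutS T qv) : Set ℕ) θ)) := by
  have hle : thetaPart L' p (↑(cutS T qv) : Set ℕ) θ ⊓ kill (ccZ p τ) L' ≤
      WS L' p (↑(cutS T qv) : Set ℕ) θ := fun x hx => ⟨hx.1, (mem_kill_ccZ.1 hx.2).1⟩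
  have hfin : Finite ↥(thetaPart L' p (↑(cutS T qv) : Set ℕ) θ ⊓ kill (ccZ p τ) L') :=
    Finite.of_injective (AddSubgroup.inclusion hle) (AddSubgroup.inclusion_injective hle)
  have h1 := (hC.base (ccZ p τ) isNat_ccZ
    (fun Q i _ x hx => by
      obtain ⟨h1, h2⟩ := mem_kill_ccZ.1 hx.2
      refine mem_kill_ccZ.2 ⟨?_, fun j => ?_⟩
      · have h3 := map_nsmul (DistribSMul.toAddMonoidHom (JZero (lev L' qv Q)) (τ i)) p x
        rw [h1, map_zero] at h3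
        exact h3.symm
      · have := Low.zop_central EC (cutS T qv) (subset_cutS T qv) (lev L' qv Q)
          (fun r hr hd => TC.mem_cutS_lev Q hr hd) (hτ j) (τ i) x ⟨hx.1, h1⟩
        rw [TWLoc.zop_apply, TWLoc.zop_apply, h2 j] at this
        rw [this]
        exact TWFree.gal_zero _ _)
    (fun Q i _ x hx => (mem_kill_ccZ.1 hx.2).2 i) hfin Finset.univ).2
  have h2 := h1.trans (Nat.pow_le_pow_left (Nat.card_le_card_of_injective _
    (AddSubgroup.inclusion_injective hle)) _)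
  rw [IsCube.card_WS, ← pow_mul, Finset.card_univ, Fintype.card_fin, mul_comm] at h2
  refine le_trans (le_of_eq (Nat.card_congr (Equiv.subtypeEquivRight fun x => ?_))) h2
  rw [AddSubgroup.mem_inf, mem_kill_ccZ]
  rfl

/-- divisibility of the multi-new part, all `t`. -/
theorem div0 (hC : IsCube p (↑(cutS T qv) : Set ℕ) θ L' qv τ)
    (x : JZero (lev L' qv Finset.univ))
    (hx : x ∈ Xnew p (↑(cutS T qv) : Set ℕ) θ L' qv Finset.univ) :
    ∃ y ∈ Xnew p (↑(cutS T qv) : Set ℕ) θ L' qv Finset.univ, p • y = x := by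
  rcases (Finset.univ : Finset (Fin t)).eq_empty_or_nonempty with h | h
  · obtain ⟨y, hy, e⟩ := thetaPart_divisible _ (Fact.out : p.Prime).pos _ θ x (Xnew_le _ hx)
    refine ⟨y, mem_Xnew.2 ⟨hy, fun l hl => ?_⟩, e⟩
    rw [h] at hl
    exact absurd hl (Finset.notMem_empty l)
  · exact hC.div Finset.univ h x hx

/-- **SIZE**, all `t`. -/
theorem size0 (hC : IsCube p (↑(cutS T qv) : Set ℕ) θ L' qv τ) (hp2 : p ≠ 2) (a : ℕ) :
    p ^ (2 ^ t * Module.finrank (ZMod p) ↥(WS L' p (↑(cutS T qv) : Set ℕ) θ) *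
      (a * ∏ i, (p ^ nuP p qv i - 1) / 2)) ≤
      Nat.card {x : JZero (lev L' qv Finset.univ) //
        x ∈ Xnew p (↑(cutS T qv) : Set ℕ) θ L' qv Finset.univ ∧ p ^ a • x = 0} := by
  have h : Nat.card ↥(WS L' p (↑(cutS T qv) : Set ℕ) θ) ^
      (a * ∏ i ∈ (Finset.univ : Finset (Fin t)), (p ^ nuP p qv i - 1)) ≤
      Nat.card ↥(Xnew p (↑(cutS T qv) : Set ℕ) θ L' qv Finset.univ ⊓
        tors (JZero (lev L' qv Finset.univ)) (p ^ a)) := by
    rw [card_tors_pow _ p (div0 hC) a, mul_comm, pow_mul]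
    exact Nat.pow_le_pow_left (hC.size Finset.univ) a
  rw [IsCube.card_WS, ← pow_mul] at h
  have hodd : ∀ i : Fin t, 2 * ((p ^ nuP p qv i - 1) / 2) = p ^ nuP p qv i - 1 := by
    intro i
    have h1 : Odd p := (Fact.out : p.Prime).odd_of_ne_two hp2
    have h2 : Odd (p ^ nuP p qv i) := h1.pow
    obtain ⟨k, hk⟩ := h2
    rw [hk]
    omega
  have e : ∏ i : Fin t, (p ^ nuP p qv i - 1) = 2 ^ t * ∏ i : Fin t, (p ^ nuP p qv i - 1) / 2 := by
    rw [← Finset.prod_congr rfl (fun i _ => hodd i), Finset.prod_mul_distrib, Finset.prod_const,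
      Finset.card_univ, Fintype.card_fin]
  rw [e] at h
  refine le_trans (le_of_eq ?_) (h.trans (le_of_eq (Nat.card_congr
    (Equiv.subtypeEquivRight fun x => ?_))))
  · congr 1
    ring
  · rw [AddSubgroup.mem_inf]
    rfl

/-- **BOX** without rigidity, all `t`. -/
theorem box0 (EC : MCtx p T θ rbar0) (TC : MTW0 p T θ L' t n qv)
    {A : Fin t → ValuationSubring Qbar}
    (hA : ∀ i, (A i).LiesOverPrime ((qv i : Nat.Primes) : ℕ))
    (hτ : ∀ i, τ i ∈ (A i).inertiaSubgroupIn ℚ)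
    (hC : IsCube p (↑(cutS T qv) : Set ℕ) θ L' qv τ) {a : ℕ} (ha : 1 ≤ a) (h2a : 2 * a ≤ n + 1) :
    p ^ (2 ^ t * Module.finrank (ZMod p) ↥(WS L' p (↑(cutS T qv) : Set ℕ) θ) * a ^ (t + 1)) ≤
      Nat.card {x : JZero (lev L' qv Finset.univ) //
        x ∈ Xnew p (↑(cutS T qv) : Set ℕ) θ L' qv Finset.univ ∧ p ^ a • x = 0 ∧
          ∀ i, (TWLoc.zop (τ i))^[a] x = 0} := by
  have hlp : ∀ i, ((qv i : Nat.Primes) : ℕ) ≠ p := fun i h => TC.notT i (h ▸ EC.p_mem)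
  have hrb : ∀ i, rbar0 (τ i) = 1 := fun i =>
    EC.unramT _ (qv i).2 (TC.notT i) (A i) (hA i) (τ i) (hτ i)
  exact box_of_sub EC (cutS T qv) (subset_cutS T qv) (lev L' qv Finset.univ)
    (fun r hr hd => TC.mem_cutS_lev Finset.univ hr hd) τ
    (fun i j ζ hζ => inertia_fix_roots (qv i).2 (hlp i) (hA i) (hτ i) j ζ hζ)
    (Xnew p (↑(cutS T qv) : Set ℕ) θ L' qv Finset.univ) (fun σ x hx => smul_mem_Xnew σ hx) ha
    (nuP p qv) (fun i => h2a.trans (TC.le_nuP i))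
    (fun i x hx => hC.norm_zero Finset.univ i (Finset.mem_univ i) x hx)
    (cogen0 hC EC TC hrb) (size0 hC EC.hp2 a)

/-! ### the box as a subgroup -/

/-- the box `Xnew(L')[p^a, z^a]`. -/
def boxSub (p : ℕ) (S : Set ℕ) (θ : ℕ → ℤ) (L' : ℕ) [NeZero L'] {t : ℕ} (qv : Fin t → Nat.Primes)
    (τ : Fin t → GQ) (a : ℕ) : AddSubgroup (JZero (lev L' qv Finset.univ)) where
  carrier := {x | x ∈ Xnew p S θ L' qv Finset.univ ∧ p ^ a • x = 0 ∧
    ∀ i, (TWLoc.zop (τ i))^[a] x = 0}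
  zero_mem' := ⟨AddSubgroup.zero_mem _, smul_zero _, fun i => iterate_map_zero _ _⟩
  add_mem' := fun {x y} hx hy => ⟨AddSubgroup.add_mem _ hx.1 hy.1,
    by rw [nsmul_add, hx.2.1, hy.2.1, add_zero],
    fun i => by rw [iterate_map_add, hx.2.2 i, hy.2.2 i, add_zero]⟩
  neg_mem' := fun {x} hx => ⟨AddSubgroup.neg_mem _ hx.1, by rw [neg_nsmul, hx.2.1, neg_zero],
    fun i => by rw [iterate_map_neg, hx.2.2 i, neg_zero]⟩

theorem mem_boxSub {S : Set ℕ} {a : ℕ} {x : JZero (lev L' qv Finset.univ)} :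
    x ∈ boxSub p S θ L' qv τ a ↔ x ∈ Xnew p S θ L' qv Finset.univ ∧ p ^ a • x = 0 ∧
      ∀ i, (TWLoc.zop (τ i))^[a] x = 0 := Iff.rfl

/-- `z(g)^k` commutes with `G_ℚ` on `p^a`-torsion. -/
theorem zop_iterate_smul (EC : MCtx p T θ rbar0) (S : Finset ℕ) (hTS : T ⊆ S) (N : ℕ) [NeZero N]
    (hN : ∀ r : ℕ, r.Prime → r ∣ N * p → r ∈ S) {g : GQ} (a : ℕ)
    (hg : ∀ ζ : Qbar, ζ ^ (p ^ a) = 1 → g ζ = ζ) (σ : GQ) (k : ℕ) (x : JZero N)
    (hx : p ^ a • x = 0) :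
    (TWLoc.zop g)^[k] (σ • x) = σ • (TWLoc.zop g)^[k] x := by
  induction k generalizing x with
  | zero => rfl
  | succ k ih =>
    rw [Function.iterate_succ_apply, Function.iterate_succ_apply,
      zop_comm_tors EC S hTS N hN a hg σ x hx, ih _ (by rw [← map_nsmul, hx, map_zero])]

theorem smul_mem_boxSub (EC : MCtx p T θ rbar0) (TC : MTW0 p T θ L' t n qv)
    {A : Fin t → ValuationSubring Qbar}
    (hA : ∀ i, (A i).LiesOverPrime ((qv i : Nat.Primes) : ℕ))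
    (hτ : ∀ i, τ i ∈ (A i).inertiaSubgroupIn ℚ) {a : ℕ} (σ : GQ)
    {x : JZero (lev L' qv Finset.univ)}
    (hx : x ∈ boxSub p (↑(cutS T qv) : Set ℕ) θ L' qv τ a) :
    σ • x ∈ boxSub p (↑(cutS T qv) : Set ℕ) θ L' qv τ a := by
  have hlp : ∀ i, ((qv i : Nat.Primes) : ℕ) ≠ p := fun i h => TC.notT i (h ▸ EC.p_mem)
  refine ⟨smul_mem_Xnew σ hx.1, ?_, fun i => ?_⟩
  · have h3 := map_nsmul (DistribSMul.toAddMonoidHom (JZero (lev L' qv Finset.univ)) σ) (p ^ a) x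
    rw [hx.2.1, map_zero] at h3
    exact h3.symm
  · rw [zop_iterate_smul EC (cutS T qv) (subset_cutS T qv) _
      (fun r hr hd => TC.mem_cutS_lev Finset.univ hr hd) a
      (fun ζ hζ => inertia_fix_roots (qv i).2 (hlp i) (hA i) (hτ i) a ζ hζ) σ a x hx.2.1, hx.2.2 i]
    exact TWFree.gal_zero _ _

/-- an equivariant additive map commutes with `z(g)^k`. -/
theorem map_zop_iterate {N N' : ℕ} [NeZero N] [NeZero N'] (u : JZero N →+ JZero N')
    (hu : ∀ (σ : GQ) x, u (σ • x) = σ • u x) (g : GQ) (k : ℕ) (x : JZero N) :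
    (zOp g)^[k] (u x) = u ((TWLoc.zop g)^[k] x) := by
  induction k generalizing x with
  | zero => rfl
  | succ k ih =>
    rw [Function.iterate_succ_apply, Function.iterate_succ_apply, ← ih]
    congr 1
    rw [TWLoc.zop_apply, map_sub, map_add, map_nsmul, hu, hu]
    rfl

/-- **[BASE-PULL]** -/
theorem exists_pull (EC : MCtx p T θ rbar0) (TC : MTW0 p T θ L' t n qv)
    {A : Fin t → ValuationSubring Qbar}
    (hA : ∀ i, (A i).LiesOverPrime ((qv i : Nat.Primes) : ℕ))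
    (hτ : ∀ i, τ i ∈ (A i).inertiaSubgroupIn ℚ)
    (hC : IsCube p (↑(cutS T qv) : Set ℕ) θ L' qv τ)
    (hW : WS L' p (↑(cutS T qv) : Set ℕ) θ ≠ ⊥)
    {N : ℕ} [NeZero N] (u : JZero (lev L' qv Finset.univ) →+ JZero N)
    (hu : ∀ (σ : GQ) x, u (σ • x) = σ • u x)
    (hinj : ∀ x ∈ thetaPart (lev L' qv Finset.univ) p (↑(cutS T qv) : Set ℕ) θ, u x = 0 → x = 0)
    (hθ : ∀ x ∈ thetaPart (lev L' qv Finset.univ) p (↑(cutS T qv) : Set ℕ) θ,
      u x ∈ thetaPart N p (↑(cutS T qv) : Set ℕ) θ)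
    {a m : ℕ} (ha : 1 ≤ a) (h2a : 2 * a ≤ n + 1) (hm : m ≤ a) :
    ∃ G : AddSubgroup (JZero N), G ≤ thetaPart N p (↑(cutS T qv) : Set ℕ) θ ∧
      (∀ g : GQ, ∀ x ∈ G, g • x ∈ G) ∧ (∀ x ∈ G, p ^ a • x = 0) ∧
      (∀ i, ∀ x ∈ G, (zOp (τ i))^[a] x = 0) ∧
      (∀ x ∈ G, ∃ x₁ ∈ Xnew p (↑(cutS T qv) : Set ℕ) θ L' qv Finset.univ, u x₁ = x) ∧
      p ^ (m ^ (t + 1)) ≤ Nat.card G := by
  have hp : p.Prime := Fact.out
  set Bx := boxSub p (↑(cutS T qv) : Set ℕ) θ L' qv τ a with hBx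
  refine ⟨Bx.map u, ?_, ?_, ?_, ?_, ?_, ?_⟩
  · rintro _ ⟨x, hx, rfl⟩
    exact hθ x (Xnew_le _ hx.1)
  · rintro g _ ⟨x, hx, rfl⟩
    exact ⟨g • x, smul_mem_boxSub EC TC hA hτ g hx, hu g x⟩
  · rintro _ ⟨x, hx, rfl⟩
    rw [← map_nsmul, hx.2.1, map_zero]
  · rintro i _ ⟨x, hx, rfl⟩
    rw [map_zop_iterate u hu, hx.2.2 i, map_zero]
  · rintro _ ⟨x, hx, rfl⟩
    exact ⟨x, hx.1, rfl⟩
  · have hfinB : Finite Bx :=
      ((finite_torsion_JZero _ (p ^ a) (pow_ne_zero _ hp.ne_zero)).subset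
        (fun x (hx : x ∈ Bx) => hx.2.1)).to_subtype
    have h1 : Nat.card Bx ≤ Nat.card (Bx.map u) := by
      haveI : Finite (Bx.map u) := by
        have : ((Bx.map u : AddSubgroup (JZero N)) : Set (JZero N)) = u '' (Bx : Set _) := rfl
        exact (Set.Finite.image u (Set.toFinite (Bx : Set _))).to_subtype
      refine Nat.card_le_card_of_injective
        (fun x => (⟨u x.1, ⟨x.1, x.2, rfl⟩⟩ : Bx.map u)) ?_
      intro x y hxy
      have h2 : u x.1 = u y.1 := congrArg Subtype.val hxy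
      have h3 : u (x.1 - y.1) = 0 := by rw [map_sub, h2, sub_self]
      exact Subtype.ext (sub_eq_zero.1 (hinj _ (Xnew_le _ (Bx.sub_mem x.2 y.2).1) h3))
    refine le_trans ?_ h1
    refine le_trans ?_ (box0 EC TC hA hτ hC ha h2a)
    refine Nat.pow_le_pow_right hp.pos ?_
    have hD : 1 ≤ Module.finrank (ZMod p) ↥(WS L' p (↑(cutS T qv) : Set ℕ) θ) := by
      by_contra hcon
      have h0 : Module.finrank (ZMod p) ↥(WS L' p (↑(cutS T qv) : Set ℕ) θ) = 0 := by omega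
      have hc := IsCube.card_WS (p := p) (T := T) (θ := θ) (L₀ := L') (qv := qv)
      rw [h0, pow_zero] at hc
      apply hW
      rw [eq_bot_iff]
      intro x hx
      have := (Nat.card_eq_one_iff_unique.1 hc).1
      exact congrArg Subtype.val (Subsingleton.elim (⟨x, hx⟩ :
        ↥(WS L' p (↑(cutS T qv) : Set ℕ) θ)) 0)
    calc m ^ (t + 1) ≤ a ^ (t + 1) := Nat.pow_le_pow_left hm _
      _ = 1 * a ^ (t + 1) := (one_mul _).symm
      _ ≤ _ := Nat.mul_le_mul_right _ (Nat.mul_pos (pow_pos (by norm_num) t) hD)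

end Fermat.Agent.ML.Lift.Base
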