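import Fermat.Agent.ML.At2.N2.Geo
import Fermat.Agent.ML.At2.KeyEq.Deg
import Fermat.Agent.ML.Lift.Inst.Geo
import Fermat.Agent.ML.TWFree.Inst.Lvl
import Fermat.Agent.ML.Main.LocCalc

/-!
# ML / Lift / Base / Maps : the two maps `u` from the TRUE levels `M'`, `2M'` to the level `4M'`

`M' = M ∏ l_i²`.
* `uOdd M qv L₀ h : J₀(lev M qv univ) → J₀(lvl L₀ (extP qv) t)`   (`d_1^*`, `L₀ = M * 4`);
* `uTwo M qv L₀ h : J₀(lev (M * 2) qv univ) → J₀(lvl L₀ (extP qv) t)`   (`δ_0^*`).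

Both are `G_ℚ`-equivariant, injective on torsion, respect the `θ`-parts and newness at the odd primes.
`I_2` acts trivially on the image of the `p`-power torsion under `uOdd`.
-/

set_option autoImplicit false
set_option linter.unusedSectionVars false

noncomputable section

open AlgebraicCurve ModularCurve

namespace Fermat.Agent.ML.Lift

open Fermat.Agent.RIB Fermat.Agent.GAL Fermat.Agent.GAL.PC Fermat.Agent.ML Fermat.Agent.ML.TWFree
  Fermat.Agent.ML.At2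

local notation "Qbar" => AlgebraicClosure ℚ
local notation "GQ" => (AlgebraicClosure ℚ ≃ₐ[ℚ] AlgebraicClosure ℚ)

/-! ### generalities on `castJ`, `upE` -/

theorem isNewAt_castJ_iff {N N' l : ℕ} [NeZero N] [NeZero N'] (e : N = N') {x : JZero N} :
    Tower.IsNewAt N' l (castJ e x) ↔ Tower.IsNewAt N l x := by
  subst e; rfl

theorem upE_eq_zero_of_torsion {N N' q : ℕ} [NeZero N] [NeZero N'] [NeZero q] (hq : q.Prime)
    (h : N' = N * q) (c : Fin 2) {m : ℕ} (hm : m ≠ 0) {x : JZero N} (hmx : m • x = 0)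
    (h0 : upE h c x = 0) : x = 0 := by
  subst h
  fin_cases c
  · exact pullA_eq_zero_of_torsion hq hm hmx h0
  · exact pullB_eq_zero_of_torsion hq hm hmx h0

section Maps

variable (M : ℕ) [NeZero M] {t : ℕ} (qv : Fin t → Nat.Primes) (L₀ : ℕ) [NeZero L₀]

theorem lvl_eq_lev_four (h : L₀ = M * 4) :
    lev (M * 4) qv Finset.univ = lvl L₀ (extP qv) t := by
  subst h; exact (lvl_eq_lev (M * 4) qv).symm

/-- `d_1^*` from the odd level to the top of the tower over `L₀ = 4M`. -/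
def uOdd (h : L₀ = M * 4) : JZero (lev M qv Finset.univ) →+ JZero (lvl L₀ (extP qv) t) :=
  (castJ (lvl_eq_lev_four M qv L₀ h)).toAddMonoidHom.comp (d1Up M qv Finset.univ)

/-- `δ_0^*` from the level `2M'` to the top of the tower over `L₀ = 4M`. -/
def uTwo (h : L₀ = M * 4) : JZero (lev (M * 2) qv Finset.univ) →+ JZero (lvl L₀ (extP qv) t) :=
  (castJ (lvl_eq_lev_four M qv L₀ h)).toAddMonoidHom.comp (delUp M qv Finset.univ 0)

variable {M qv L₀}

theorem uOdd_apply (h : L₀ = M * 4) (x : JZero (lev M qv Finset.univ)) :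
    uOdd M qv L₀ h x = castJ (lvl_eq_lev_four M qv L₀ h) (d1Up M qv Finset.univ x) := rfl

theorem uTwo_apply (h : L₀ = M * 4) (x : JZero (lev (M * 2) qv Finset.univ)) :
    uTwo M qv L₀ h x = castJ (lvl_eq_lev_four M qv L₀ h) (delUp M qv Finset.univ 0 x) := rfl

/-- `d_1^* = δ_0^* β^*`. -/
theorem uOdd_eq_uTwo (h : L₀ = M * 4) (x : JZero (lev M qv Finset.univ)) :
    uOdd M qv L₀ h x = uTwo M qv L₀ h (upQ qv (rfl : M * 2 = M * 2) Finset.univ 1 x) := by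
  rw [uOdd_apply, uTwo_apply, d1Up_eq]

theorem uOdd_smul (h : L₀ = M * 4) (σ : GQ) (x : JZero (lev M qv Finset.univ)) :
    uOdd M qv L₀ h (σ • x) = σ • uOdd M qv L₀ h x := by
  rw [uOdd_apply, uOdd_apply, d1Up_smul, castJ_smul]

theorem uTwo_smul (h : L₀ = M * 4) (σ : GQ) (x : JZero (lev (M * 2) qv Finset.univ)) :
    uTwo M qv L₀ h (σ • x) = σ • uTwo M qv L₀ h x := by
  rw [uTwo_apply, uTwo_apply, delUp_smul, castJ_smul]

/-- `δ_0^*` is injective on torsion. -/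
theorem uTwo_eq_zero (h : L₀ = M * 4) {m : ℕ} (hm : m ≠ 0)
    {x : JZero (lev (M * 2) qv Finset.univ)} (hmx : m • x = 0) (h0 : uTwo M qv L₀ h x = 0) :
    x = 0 := by
  rw [uTwo_apply, AddEquiv.map_eq_zero_iff] at h0
  exact upE_eq_zero_of_torsion Nat.prime_two (lev_mul qv (four_eq M) Finset.univ) 0 hm hmx h0

/-- `d_1^*` is injective on torsion. -/
theorem uOdd_eq_zero (h : L₀ = M * 4) {m : ℕ} (hm : m ≠ 0)
    {x : JZero (lev M qv Finset.univ)} (hmx : m • x = 0) (h0 : uOdd M qv L₀ h x = 0) : x = 0 := by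
  rw [uOdd_eq_uTwo] at h0
  have h1 := uTwo_eq_zero h hm (by rw [← map_nsmul, hmx, map_zero]) h0
  exact upE_eq_zero_of_torsion Nat.prime_two (lev_mul qv rfl Finset.univ) 1 hm hmx h1

variable {p : ℕ} {S : Set ℕ} {θ : ℕ → ℤ}

theorem hS_lev_four (h : L₀ = M * 4)
    (hS : ∀ r : ℕ, r.Prime → r ∉ S → ¬ r ∣ lvl L₀ (extP qv) t * p) :
    ∀ r : ℕ, r.Prime → r ∉ S → ¬ r ∣ lev (M * 4) qv Finset.univ * p := by
  rw [lvl_eq_lev_four M qv L₀ h]; exact hS

theorem uOdd_mem_thetaPart (h : L₀ = M * 4)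
    (hS : ∀ r : ℕ, r.Prime → r ∉ S → ¬ r ∣ lvl L₀ (extP qv) t * p)
    {x : JZero (lev M qv Finset.univ)} (hx : x ∈ thetaPart (lev M qv Finset.univ) p S θ) :
    uOdd M qv L₀ h x ∈ thetaPart (lvl L₀ (extP qv) t) p S θ :=
  (castJ_mem_thetaPart _).2 (d1Up_mem_thetaPart _ (hS_lev_four h hS) hx)

theorem uTwo_mem_thetaPart (h : L₀ = M * 4)
    (hS : ∀ r : ℕ, r.Prime → r ∉ S → ¬ r ∣ lvl L₀ (extP qv) t * p)
    {x : JZero (lev (M * 2) qv Finset.univ)}
    (hx : x ∈ thetaPart (lev (M * 2) qv Finset.univ) p S θ) :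
    uTwo M qv L₀ h x ∈ thetaPart (lvl L₀ (extP qv) t) p S θ :=
  (castJ_mem_thetaPart _).2 (delUp_mem_thetaPart _ (hS_lev_four h hS) 0 hx)

/-- newness at an odd prime is preserved by `δ_0^*`. -/
theorem isNewAt_uTwo (h : L₀ = M * 4) {l : ℕ} (hl : l.Prime) (hl2 : l ≠ 2)
    {x : JZero (lev (M * 2) qv Finset.univ)}
    (hx : Tower.IsNewAt (lev (M * 2) qv Finset.univ) l x) :
    Tower.IsNewAt (lvl L₀ (extP qv) t) l (uTwo M qv L₀ h x) :=
  (isNewAt_castJ_iff _).2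
    (isNewAt_upE Nat.prime_two hl hl2 (lev_mul qv (four_eq M) Finset.univ) 0 hx)

/-- newness at an odd prime is preserved by `d_1^*`. -/
theorem isNewAt_uOdd (h : L₀ = M * 4) {l : ℕ} (hl : l.Prime) (hl2 : l ≠ 2)
    {x : JZero (lev M qv Finset.univ)} (hx : Tower.IsNewAt (lev M qv Finset.univ) l x) :
    Tower.IsNewAt (lvl L₀ (extP qv) t) l (uOdd M qv L₀ h x) := by
  rw [uOdd_eq_uTwo]
  exact isNewAt_uTwo h hl hl2
    (isNewAt_upE Nat.prime_two hl hl2 (lev_mul qv rfl Finset.univ) 1 hx)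

/-- good reduction at `2` at the odd level: `I_2` acts trivially on the image of `d_1^*`. -/
theorem locUr_two_uOdd (h : L₀ = M * 4) (h2 : ¬ 2 ∣ lev M qv Finset.univ * p)
    (G : Set (JZero (lev M qv Finset.univ))) (hG : ∀ x ∈ G, x ∈ ptors (JZero _) p) :
    LocUr 2 (uOdd M qv L₀ h '' G) := by
  refine LocUr.image ?_ _ (uOdd_smul h)
  intro A hA τ hτ x hx
  exact (SS.es_all _ p).1 2 Nat.prime_two h2 A hA τ hτ x (hG x hx)

/-- transport of the local conditions along `u`. -/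
theorem locUnip_uTwo (h : L₀ = M * 4) {q : ℕ} {G : Set (JZero (lev (M * 2) qv Finset.univ))}
    (hG : LocUnip q G) : LocUnip q (uTwo M qv L₀ h '' G) := hG.image _ (uTwo_smul h)

theorem locSt_uTwo (h : L₀ = M * 4) {q : ℕ} {ε : ℤ}
    {G : Set (JZero (lev (M * 2) qv Finset.univ))}
    (hG : LocSt q ε G) : LocSt q ε (uTwo M qv L₀ h '' G) := hG.image _ (uTwo_smul h)

theorem locUr_uTwo (h : L₀ = M * 4) {q : ℕ} {G : Set (JZero (lev (M * 2) qv Finset.univ))}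
    (hG : LocUr q G) : LocUr q (uTwo M qv L₀ h '' G) := hG.image _ (uTwo_smul h)

theorem locUr_uOdd (h : L₀ = M * 4) {q : ℕ} {G : Set (JZero (lev M qv Finset.univ))}
    (hG : LocUr q G) : LocUr q (uOdd M qv L₀ h '' G) := hG.image _ (uOdd_smul h)

theorem locUnip_uOdd (h : L₀ = M * 4) {q : ℕ} {G : Set (JZero (lev M qv Finset.univ))}
    (hG : LocUnip q G) : LocUnip q (uOdd M qv L₀ h '' G) := hG.image _ (uOdd_smul h)

theorem inBox_uOdd (h : L₀ = M * 4) {a : ℕ} {x : JZero (lev M qv Finset.univ)}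
    (hx : InBox p qv a x) : InBox p qv a (uOdd M qv L₀ h x) := hx.map _ (uOdd_smul h)

theorem inBox_uTwo (h : L₀ = M * 4) {a : ℕ} {x : JZero (lev (M * 2) qv Finset.univ)}
    (hx : InBox p qv a x) : InBox p qv a (uTwo M qv L₀ h x) := hx.map _ (uTwo_smul h)

/-- the cardinality of the image of a torsion subgroup. -/
theorem card_map_uOdd (h : L₀ = M * 4) {m : ℕ} (hm : m ≠ 0)
    (G : AddSubgroup (JZero (lev M qv Finset.univ))) (hG : ∀ x ∈ G, m • x = 0) :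
    Nat.card (G.map (uOdd M qv L₀ h)) = Nat.card G := by
  refine (Nat.card_congr (Equiv.ofBijective
    (fun x : G => (⟨uOdd M qv L₀ h x, AddSubgroup.mem_map_of_mem _ x.2⟩ : G.map (uOdd M qv L₀ h)))
    ⟨fun x y hxy => ?_, ?_⟩)).symm
  · have h1 : uOdd M qv L₀ h (x.1 - y.1) = 0 := by
      rw [map_sub, sub_eq_zero]; exact congrArg Subtype.val hxy
    exact Subtype.ext (sub_eq_zero.1 (uOdd_eq_zero h hm (hG _ (G.sub_mem x.2 y.2)) h1))
  · rintro ⟨_, x, hx, rfl⟩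
    exact ⟨⟨x, hx⟩, rfl⟩

theorem card_map_uTwo (h : L₀ = M * 4) {m : ℕ} (hm : m ≠ 0)
    (G : AddSubgroup (JZero (lev (M * 2) qv Finset.univ))) (hG : ∀ x ∈ G, m • x = 0) :
    Nat.card (G.map (uTwo M qv L₀ h)) = Nat.card G := by
  refine (Nat.card_congr (Equiv.ofBijective
    (fun x : G => (⟨uTwo M qv L₀ h x, AddSubgroup.mem_map_of_mem _ x.2⟩ : G.map (uTwo M qv L₀ h)))
    ⟨fun x y hxy => ?_, ?_⟩)).symm
  · have h1 : uTwo M qv L₀ h (x.1 - y.1) = 0 := by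
      rw [map_sub, sub_eq_zero]; exact congrArg Subtype.val hxy
    exact Subtype.ext (sub_eq_zero.1 (uTwo_eq_zero h hm (hG _ (G.sub_mem x.2 y.2)) h1))
  · rintro ⟨_, x, hx, rfl⟩
    exact ⟨⟨x, hx⟩, rfl⟩

end Maps

end Fermat.Agent.ML.Lift
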