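import Fermat.Agent.ML.Main.StepSplit
import Fermat.Agent.ML.Main.LocCalc
import Fermat.Agent.SS.Mod.S34Wire
import Fermat.Agent.SS.Mod.CuspOrdC
import Fermat.Agent.SS.Top35.SMO

/-!
# ML / Lift / Base / Loc : the fields `ur`, `unip` of a cell at the primes where they are automatic

* `unip_pair_rigid`, `unip_pair` : `q ‖ N`, `q ≠ p`, `τ τ' ∈ I_A`, `x` of `p`-power order : `τ' (τ x - x) = τ x - x`
  (the BILINEAR form of `SS.unip_of_cuspOrd`; ANY level `N`, `q = 2` allowed).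
* `locUr_of_not_dvd`, `locUnip_of_exact`, `locUnip_of_not_sq` : in the vocabulary of `ML/Main/Cell.lean`, for any set of `p`-power
  torsion classes, any level.
* arithmetic of the level of a cell : `not_sq_dvd_lvl_of`, `LCtx.cellLevel_shape`, `LCtx.dvd_cellLevel`,
  `LCtx.mem_T_of_dvd_cellLevel`.
* `LCtx.cell_ur_odd`, `LCtx.cell_unip_of_mem`, `LCtx.cell_unip_odd` : the fields `ur`, `unip` (and the `LocUnip` half of `st`) of
  `IsCell` at `q ≠ 2`, for EVERY state `P ⊆ Pfin` and every set of `p`-power torsion classes of level `lvl Lc (extP qv) t`.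
* `LCtx.isCell_mk` : a constructor of `IsCell` which only asks for what is not automatic.
-/

set_option autoImplicit false
set_option linter.unusedSectionVars false
set_option linter.style.haveILetI false

noncomputable section

open AlgebraicCurve ModularCurve

namespace Fermat.Agent.ML.Lift

open Fermat.Agent.RIB Fermat.Agent.ML.ESide

local notation "Qbar" => AlgebraicClosure ℚ
local notation "GQ" => (AlgebraicClosure ℚ ≃ₐ[ℚ] AlgebraicClosure ℚ)
local notation "M₂" => Matrix (Fin 2) (Fin 2)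

/-! ### unipotency of inertia, bilinear form -/

/-- the bilinear form of [UNIP-RIGID]. -/
theorem unip_pair_rigid {M q : ℕ} [NeZero M] [hq : Fact q.Prime] (hqM : ¬ q ∣ M)
    (h49 : 4 ∣ M ∨ 9 ∣ M) {p : ℕ} (hp : p.Prime) (hpq : p ≠ q) (A : ValuationSubring Qbar)
    (hA : A.LiesOverPrime q) {τ τ' : GQ} (hτ : τ ∈ A.inertiaSubgroupIn ℚ)
    (hτ' : τ' ∈ A.inertiaSubgroupIn ℚ) (x : JZero (M * q)) (hx : ∃ n : ℕ, p ^ n • x = 0) :
    τ' • (τ • x - x) = τ • x - x := by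
  obtain ⟨n, hn⟩ := hx
  haveI : IsAlgClosed (IsLocalRing.ResidueField A) := RED.GalEq.isAlgClosed_residueField A
  haveI : CharP (IsLocalRing.ResidueField A) q := RED.GalEq.charP_residueField hq.out hA
  obtain ⟨𝒩, hP⟩ := SS.hasNodal_of_cuspOrd hqM h49 (SS.cuspOrd M q) A hA
  have hg := SS.isCompat_of_mem_inertia hqM A hτ 𝒩 hP
  have hg' := SS.isCompat_of_mem_inertia hqM A hτ' 𝒩 hP
  have hpk : (p : IsLocalRing.ResidueField A) ≠ 0 := by
    intro h0
    have := (CharP.cast_eq_zero_iff (IsLocalRing.ResidueField A) q p).1 h0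
    exact hpq ((Nat.prime_dvd_prime_iff_eq hq.out hp).1 this).symm
  exact SS.unipotent_of_torsion 𝒩 (RED.RB.isSepParam_jF (M * q))
    (RED.Cusp.isSepParam_jb M (IsLocalRing.ResidueField A) q hqM) hp hpk n hg hg' (y := x) hn

/-- the same at a level given by an equation. -/
theorem unip_pair_rigid' {N M q : ℕ} [NeZero N] [NeZero M] (hq : q.Prime) (hN : N = M * q)
    (hqM : ¬ q ∣ M) (h49 : 4 ∣ M ∨ 9 ∣ M) {p : ℕ} (hp : p.Prime) (hpq : p ≠ q)
    (A : ValuationSubring Qbar) (hA : A.LiesOverPrime q) {τ τ' : GQ}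
    (hτ : τ ∈ A.inertiaSubgroupIn ℚ) (hτ' : τ' ∈ A.inertiaSubgroupIn ℚ) (x : JZero N)
    (hx : ∃ n : ℕ, p ^ n • x = 0) : τ' • (τ • x - x) = τ • x - x := by
  subst hN
  haveI : Fact q.Prime := ⟨hq⟩
  exact unip_pair_rigid hqM h49 hp hpq A hA hτ hτ' x hx

/-- **[UNIP], bilinear form**, at ANY level `N` exactly divisible by `q ≠ p` (`q = 2` allowed). -/
theorem unip_pair {N q p : ℕ} [NeZero N] (hq : q.Prime) (hp : p.Prime) (hqp : q ≠ p) (hqN : q ∣ N)
    (hq2 : ¬ q ^ 2 ∣ N) (A : ValuationSubring Qbar) (hA : A.LiesOverPrime q) {τ τ' : GQ}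
    (hτ : τ ∈ A.inertiaSubgroupIn ℚ) (hτ' : τ' ∈ A.inertiaSubgroupIn ℚ) (x : JZero N)
    (hx : ∃ n : ℕ, p ^ n • x = 0) : τ' • (τ • x - x) = τ • x - x := by
  obtain ⟨M, hM, hqM, h49, hN⟩ := SS.exists_level hq hqN hq2
  haveI : NeZero M := ⟨hM⟩
  have h0 : x ∈ GAL.PC.ptors (JZero N) p := hx
  have h1 : τ • x - x ∈ GAL.PC.ptors (JZero N) p :=
    (GAL.PC.ptors (JZero N) p).sub_mem (SS.smul_torsion N τ x hx) h0
  have h2 : τ' • (τ • x - x) ∈ GAL.PC.ptors (JZero N) p := SS.smul_torsion N τ' _ h1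
  rw [← sub_eq_zero]
  refine SS.eq_zero_of_Bstar_eq_zero N (RED.aux q) (RED.aux_eq q) hp.ne_zero _
    ((GAL.PC.ptors (JZero N) p).sub_mem h2 h1) ?_
  rw [map_sub, RED.Bstar_smul, map_sub, RED.Bstar_smul, sub_eq_zero]
  exact unip_pair_rigid' hq hN hqM h49 hp hqp.symm A hA hτ hτ' _
    (SS.Bstar_torsion N (RED.aux q) x hx)

/-! ### the vocabulary of `Cell.lean` -/

/-- good reduction : unramified at `q ∤ N p`. -/
theorem locUr_of_not_dvd {N p q : ℕ} [NeZero N] (hq : q.Prime) (hqN : ¬ q ∣ N * p)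
    (G : Set (JZero N)) (hG : ∀ x ∈ G, ∃ n : ℕ, p ^ n • x = 0) : LocUr q G :=
  fun A hA τ hτ x hx => (SS.es_all N p).1 q hq hqN A hA τ hτ x (hG x hx)

/-- semistable reduction : unipotent at `q ‖ N`, `q ≠ p`. -/
theorem locUnip_of_exact {N p q : ℕ} [NeZero N] (hq : q.Prime) (hp : p.Prime) (hqp : q ≠ p)
    (hqN : q ∣ N) (hq2 : ¬ q ^ 2 ∣ N) (G : Set (JZero N))
    (hG : ∀ x ∈ G, ∃ n : ℕ, p ^ n • x = 0) : LocUnip q G :=
  fun A hA _ hτ _ hτ' x hx => unip_pair hq hp hqp hqN hq2 A hA hτ hτ' x (hG x hx)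

/-- unipotent at every `q ≠ p` with `q² ∤ N`. -/
theorem locUnip_of_not_sq {N p q : ℕ} [NeZero N] (hq : q.Prime) (hp : p.Prime) (hqp : q ≠ p)
    (hq2 : ¬ q ^ 2 ∣ N) (G : Set (JZero N)) (hG : ∀ x ∈ G, ∃ n : ℕ, p ^ n • x = 0) :
    LocUnip q G := by
  by_cases hqN : q ∣ N
  · exact locUnip_of_exact hq hp hqp hqN hq2 G hG
  · refine (locUr_of_not_dvd hq (fun h => ?_) G hG).locUnip
    rcases (Nat.Prime.dvd_mul hq).1 h with h | h
    · exact hqN h
    · exact hqp ((Nat.prime_dvd_prime_iff_eq hq hp).1 h)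

/-! ### arithmetic of the level of a cell -/

/-- a prime different from the Taylor-Wiles primes: its square divides the top level only if it divides the base level. -/
theorem not_sq_dvd_lvl_of {L t : ℕ} {qv : Fin t → Nat.Primes} {q : ℕ} (hq : q.Prime)
    (hqv : ∀ j, q ≠ ((qv j : Nat.Primes) : ℕ)) (h : ¬ q ^ 2 ∣ L) (i : ℕ) :
    ¬ q ^ 2 ∣ lvl L (extP qv) i := by
  induction i with
  | zero => exact h
  | succ i ih =>
    rw [lvl_succ]
    have hc : Nat.Coprime (q ^ 2) (extP qv i) := by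
      refine Nat.Coprime.pow_left 2 ?_
      unfold extP
      split_ifs with hi
      · exact (Nat.coprime_primes hq (qv ⟨i, hi⟩).2).2 (hqv _)
      · exact Nat.coprime_one_right q
    intro hd
    exact ih (hc.dvd_of_dvd_mul_right (hc.dvd_of_dvd_mul_right hd))

section LCtx

variable {W : WeierstrassCurve ℤ} {p : ℕ} [Fact p.Prime] {T : Finset ℕ}
  {b : Module.Basis (Fin 2) (ZMod p) (TorsW W p)} {L₀ : ℕ} [NeZero L₀] {eps : ℕ → ℤ} {eP : GQ → ℤ}

/-- the shape of the level of a cell. -/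
theorem _root_.Fermat.Agent.ML.LCtx.cellLevel_shape (X : LCtx W p T b L₀ eps eP) {P : Finset ℕ}
    (hP : P ⊆ Pfin W (rbarB b) L₀) :
    ∃ M' : ℕ, cellLevel L₀ P = M' * 4 ∧ Odd M' ∧ Squarefree M' := by
  obtain ⟨M, hL, hodd, hsq⟩ := X.BP.shape
  have hpr : ∀ q ∈ P.erase 2, q.Prime := fun q hq =>
    X.prime_of_mem_Pfin (hP (Finset.mem_of_mem_erase hq))
  have hnd : ∀ q ∈ P.erase 2, ¬ q ∣ L₀ := fun q hq =>
    X.not_dvd_of_mem_Pfin (hP (Finset.mem_of_mem_erase hq)) (Finset.ne_of_mem_erase hq)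
  refine ⟨M * ∏ q ∈ P.erase 2, q, by rw [cellLevel, hL]; ring, ?_, ?_⟩
  · refine hodd.mul ?_
    rw [← Nat.not_even_iff_odd, even_iff_two_dvd, prime_dvd_prod_iff hpr Nat.prime_two]
    exact fun h2 => Finset.ne_of_mem_erase h2 rfl
  · refine (Nat.squarefree_mul_iff).2 ⟨?_, hsq, squarefree_prod_primes _ hpr⟩
    refine Nat.Coprime.prod_right fun q hq => ?_
    refine (Nat.Coprime.symm ((hpr q hq).coprime_iff_not_dvd.2 fun hd => ?_))
    exact hnd q hq (hL ▸ hd.mul_right 4)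

/-- the primes of the level of a cell. -/
theorem _root_.Fermat.Agent.ML.LCtx.dvd_cellLevel (X : LCtx W p T b L₀ eps eP) {P : Finset ℕ}
    (hP : P ⊆ Pfin W (rbarB b) L₀) {q : ℕ} (hq : q.Prime) (hd : q ∣ cellLevel L₀ P) :
    q ∣ L₀ ∨ (q ∈ P ∧ q ≠ 2) := by
  have hpr : ∀ q ∈ P.erase 2, q.Prime := fun q hq =>
    X.prime_of_mem_Pfin (hP (Finset.mem_of_mem_erase hq))
  rcases (Nat.Prime.dvd_mul hq).1 hd with h | h
  · exact Or.inl h
  · have h1 := (prime_dvd_prod_iff hpr hq).1 h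
    exact Or.inr ⟨Finset.mem_of_mem_erase h1, Finset.ne_of_mem_erase h1⟩

/-- the primes of the level of a cell (and `p`) lie in `T`. -/
theorem _root_.Fermat.Agent.ML.LCtx.mem_T_of_dvd_cellLevel (X : LCtx W p T b L₀ eps eP)
    {P : Finset ℕ} (hP : P ⊆ Pfin W (rbarB b) L₀) {q : ℕ} (hq : q.Prime)
    (hd : q ∣ cellLevel L₀ P * p) : q ∈ T := by
  rcases (Nat.Prime.dvd_mul hq).1 hd with h | h
  · rcases X.dvd_cellLevel hP hq h with h | ⟨h, -⟩
    · exact X.BP.levT q hq (h.mul_right p)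
    · exact X.hbadT q hq (X.dvd_of_mem_Pfin (hP h))
  · exact X.BP.levT q hq (h.mul_left L₀)

variable {P : Finset ℕ} {Lc : ℕ} [NeZero Lc] {t : ℕ} {qv : Fin t → Nat.Primes}

/-- **field `ur` of `IsCell` at the odd primes** : automatic. -/
theorem _root_.Fermat.Agent.ML.LCtx.cell_ur_odd (X : LCtx W p T b L₀ eps eP)
    (hP : P ⊆ Pfin W (rbarB b) L₀) (hLc : Lc = cellLevel L₀ P)
    (hnotT : ∀ i, ((qv i : Nat.Primes) : ℕ) ∉ T) (G : Set (JZero (lvl Lc (extP qv) t)))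
    (hG : ∀ x ∈ G, ∃ n : ℕ, p ^ n • x = 0) {q : ℕ} (hq : q.Prime) (hqT : q ∈ T) (hqP : q ∉ P)
    (hqp : q ≠ p) (hq2 : q ≠ 2) (hram : ¬ Ram (rbarB b) q) : LocUr q G := by
  refine locUr_of_not_dvd hq (fun hd => ?_) G hG
  rcases (Nat.Prime.dvd_mul hq).1 hd with h | h
  · rcases dvd_lvl_cases t hq h with h | ⟨j, hj⟩
    · rw [hLc] at h
      rcases X.dvd_cellLevel hP hq h with h | ⟨h, -⟩
      · exact hram (X.BP.ram q hq h hq2 hqp)
      · exact hqP h
    · exact hnotT j (hj ▸ hqT)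
  · exact hqp ((Nat.prime_dvd_prime_iff_eq hq Fact.out).1 h)

/-- inertia at an odd prime `q ≠ p` of `T` is unipotent on every cell (any state). -/
theorem _root_.Fermat.Agent.ML.LCtx.cell_unip_of_mem (X : LCtx W p T b L₀ eps eP)
    (hP : P ⊆ Pfin W (rbarB b) L₀) (hLc : Lc = cellLevel L₀ P)
    (hnotT : ∀ i, ((qv i : Nat.Primes) : ℕ) ∉ T) (G : Set (JZero (lvl Lc (extP qv) t)))
    (hG : ∀ x ∈ G, ∃ n : ℕ, p ^ n • x = 0) {q : ℕ} (hq : q.Prime) (hqT : q ∈ T)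
    (hqp : q ≠ p) (hq2 : q ≠ 2) : LocUnip q G := by
  obtain ⟨M', hM', -, hsq⟩ := X.cellLevel_shape hP
  refine locUnip_of_not_sq hq Fact.out hqp ?_ G hG
  refine not_sq_dvd_lvl_of hq (fun j hj => hnotT j (hj ▸ hqT)) ?_ t
  rw [hLc, hM']
  exact not_sq_dvd_of_shape hsq q hq hq2

/-- **field `unip` of `IsCell` at the odd primes** : automatic. -/
theorem _root_.Fermat.Agent.ML.LCtx.cell_unip_odd (X : LCtx W p T b L₀ eps eP)
    (hP : P ⊆ Pfin W (rbarB b) L₀) (hLc : Lc = cellLevel L₀ P)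
    (hnotT : ∀ i, ((qv i : Nat.Primes) : ℕ) ∉ T) (G : Set (JZero (lvl Lc (extP qv) t)))
    (hG : ∀ x ∈ G, ∃ n : ℕ, p ^ n • x = 0) {q : ℕ} (hq : q.Prime) (hqp : q ≠ p) (hq2 : q ≠ 2)
    (hram : Ram (rbarB b) q) : LocUnip q G :=
  X.cell_unip_of_mem hP hLc hnotT G hG hq
    (by_contra fun h => X.C.not_ram_of_not_mem hq h hram) hqp hq2

/-- **a constructor of `IsCell`** : only the conditions which are not automatic
(`LocSt` at the raised primes, the three conditions at `2`, the condition at `p`). -/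
theorem _root_.Fermat.Agent.ML.LCtx.isCell_mk (X : LCtx W p T b L₀ eps eP)
    (hP : P ⊆ Pfin W (rbarB b) L₀) (hLc : Lc = cellLevel L₀ P)
    (hnotT : ∀ i, ((qv i : Nat.Primes) : ℕ) ∉ T) {a : ℕ}
    (G : AddSubgroup (JZero (lvl Lc (extP qv) t)))
    (le : G ≤ thetaPart (lvl Lc (extP qv) t) p (↑(cutS T qv) : Set ℕ) W.apOfModel)
    (gal : ∀ g : GQ, ∀ x ∈ G, g • x ∈ G) (box : ∀ x ∈ G, InBox p qv a x)
    (new : ∀ x ∈ G, ∀ i : Fin t, Tower.IsNewAt (lvl Lc (extP qv) t) ((qv i : Nat.Primes) : ℕ) x)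
    (st : ∀ q ∈ P, q ≠ p → LocSt q (eps q) (G : Set (JZero (lvl Lc (extP qv) t))))
    (ur2 : 2 ∉ P → ¬ Ram (rbarB b) 2 → LocUr 2 (G : Set (JZero (lvl Lc (extP qv) t))))
    (unip2 : 2 ∈ P ∨ Ram (rbarB b) 2 → LocUnip 2 (G : Set (JZero (lvl Lc (extP qv) t))))
    (atp : p ∣ Lc → LocPSt p eP a (G : Set (JZero (lvl Lc (extP qv) t)))) :
    IsCell p T W.apOfModel (rbarB b) eps eP Lc qv a P G where
  le := le
  gal := gal
  box := box
  new := new
  st := fun q hq hqp => ⟨st q hq hqp, by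
    by_cases hq2 : q = 2
    · subst hq2
      exact unip2 (Or.inl hq)
    · exact X.cell_unip_of_mem hP hLc hnotT _ (fun x hx => (le hx).1)
        (X.prime_of_mem_Pfin (hP hq)) (X.hbadT q (X.prime_of_mem_Pfin (hP hq))
          (X.dvd_of_mem_Pfin (hP hq))) hqp hq2⟩
  ur := fun q hq hqT hqP hqp hram => by
    by_cases hq2 : q = 2
    · subst hq2
      exact ur2 hqP hram
    · exact X.cell_ur_odd hP hLc hnotT _ (fun x hx => (le hx).1) hq hqT hqP hqp hq2 hram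
  unip := fun q hq hqp hram => by
    by_cases hq2 : q = 2
    · subst hq2
      exact unip2 (Or.inr hram)
    · exact X.cell_unip_odd hP hLc hnotT _ (fun x hx => (le hx).1) hq hqp hq2 hram
  atp := atp

end LCtx

end Fermat.Agent.ML.Lift
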