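import Fermat.Agent.ML.Count.BoxBridge
import Fermat.Agent.ML.Raise.Big

/-!
# ML / Lift / Base / Abs : **[BASE-ABS]** the image of the box under an endomorphism `β` is BIG, numerics in GALOIS form

* `big_end` : `X` finite, killed by `p^a`, commuting endomorphisms `z i`, `β`; COGEN `#X[p,z] ≤ p^D`, BOX `p^(D a^(t+1)) ≤ #X[z^a]`,
  `x₀ ∈ X[p^B,z]` with `β x₀ ≠ 0`, `(t+1) m + B ≤ a + 1`  ⟹  `p^(m^(t+1)) ≤ #β(X[z^a])`.
* `big_sub` : the same for a subgroup `U` of an ambient group `J` (set-builder subtypes of `J`, as in `TWFree.twfree`).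
-/

set_option autoImplicit false
set_option linter.style.haveILetI false
set_option linter.deprecated false

namespace Fermat.Agent.ML.Lift

open Submodule MvPolynomial Fermat.Agent.ML.Raise

theorem big_end {X : Type*} [AddCommGroup X] [Finite X] {t p a D m b₀ : ℕ} [hp : Fact p.Prime]
    (ha : 1 ≤ a) (z : Fin t → X →+ X) (β : X →+ X)
    (hzz : ∀ i j x, z i (z j x) = z j (z i x)) (hzβ : ∀ i x, z i (β x) = β (z i x))
    (hpa : ∀ x : X, p ^ a • x = 0)
    (hcogen : Nat.card {x : X // p • x = 0 ∧ ∀ i, z i x = 0} ≤ p ^ D)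
    (hbox : p ^ (D * a ^ (t + 1)) ≤ Nat.card {x : X // ∀ i, (z i)^[a] x = 0})
    (x₀ : X) (hp0 : p ^ b₀ • x₀ = 0) (hz0 : ∀ i, z i x₀ = 0) (hβ0 : β x₀ ≠ 0)
    (hm : (t + 1) * m + b₀ ≤ a + 1) :
    p ^ (m ^ (t + 1)) ≤ Nat.card {y : X // ∃ x : X, (∀ i, (z i)^[a] x = 0) ∧ β x = y} := by
  classical
  let zE : Fin t → Module.End ℤ X := fun i => (z i).toIntLinearMap
  have hcomm : ∀ u ∈ Set.range zE, ∀ v ∈ Set.range zE, u * v = v * u := by
    rintro _ ⟨i, rfl⟩ _ ⟨j, rfl⟩
    exact LinearMap.ext fun x => hzz i j x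
  let B : Subalgebra ℤ (Module.End ℤ X) := Algebra.adjoin ℤ (Set.range zE)
  letI iC : CommRing B := Algebra.adjoinCommRingOfComm ℤ hcomm
  let f : B →+* Module.End ℤ X :=
    { toFun := Subtype.val
      map_one' := rfl
      map_mul' := fun _ _ => rfl
      map_zero' := rfl
      map_add' := fun _ _ => rfl }
  letI iM : Module B X := Module.compHom X f
  have hsm : ∀ (b : B) (x : X), b • x = (b : Module.End ℤ X) x := fun _ _ => rfl
  have hB : ∀ (b : B) (x : X), β (b • x) = b • β x := by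
    intro b x
    obtain ⟨b, hb⟩ := b
    show β (b x) = b (β x)
    induction hb using Algebra.adjoin_induction generalizing x with
    | mem u hu =>
      obtain ⟨i, rfl⟩ := hu
      exact (hzβ i x).symm
    | algebraMap r =>
      show β ((algebraMap ℤ (Module.End ℤ X) r) x) = (algebraMap ℤ (Module.End ℤ X) r) (β x)
      rw [Module.algebraMap_end_apply, Module.algebraMap_end_apply, map_zsmul]
    | add u v _ _ hu hv =>
      rw [LinearMap.add_apply, LinearMap.add_apply, map_add, hu, hv]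
    | mul u v _ _ hu hv =>
      rw [Module.End.mul_apply, Module.End.mul_apply, hu, hv]
  let zB : Fin t → B := fun i => ⟨zE i, Algebra.subset_adjoin ⟨i, rfl⟩⟩
  have hzB : ∀ i (x : X), zB i • x = z i x := fun _ _ => rfl
  have hzBpow : ∀ i (k : ℕ) (x : X), zB i ^ k • x = (z i)^[k] x := by
    intro i k
    induction k with
    | zero => intro x; rw [pow_zero, one_smul]; rfl
    | succ k ih => intro x; rw [pow_succ, mul_smul, hzB, ih, Function.iterate_succ_apply]
  have hnat : ∀ (n : ℕ) (x : X), (n : B) • x = n • x := by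
    intro n x
    rw [hsm]
    have : ((n : B) : Module.End ℤ X) = (n : Module.End ℤ X) := map_natCast f n
    rw [this, Module.End.natCast_apply]
  have hnatpow : ∀ (n k : ℕ) (x : X), (n : B) ^ k • x = n ^ k • x := by
    intro n k x
    rw [← Nat.cast_pow, hnat]
  obtain ⟨e, He⟩ := exists_isBoxBasis_box (A := B) (Y := X) p (D := D) ha zB
    (fun x => by rw [hnatpow]; exact hpa x)
    (by
      refine le_trans (le_of_eq (Nat.card_congr (Equiv.subtypeEquivRight fun x => ?_))) hcogen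
      simp only [Submodule.mem_inf, Submodule.mem_iInf, mem_torsionBy_iff, hnat, hzB])
    (by
      refine hbox.trans (le_of_eq (Nat.card_congr (Equiv.subtypeEquivRight fun x => ?_)))
      simp only [Submodule.mem_iInf, mem_torsionBy_iff, hzBpow])
  set Y : Submodule B X := ⨅ i, torsionBy B X (zB i ^ a) with hY
  have hmemY : ∀ x : X, x ∈ Y ↔ ∀ i, (z i)^[a] x = 0 := by
    intro x
    simp only [hY, Submodule.mem_iInf, mem_torsionBy_iff, hzBpow]
  let βL : X →ₗ[B] X := { toFun := β, map_add' := map_add β, map_smul' := hB }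
  have hβY : ∀ x ∈ Y, βL x ∈ Y := by
    intro x hx
    rw [hY, Submodule.mem_iInf] at hx ⊢
    intro i
    have := hx i
    rw [mem_torsionBy_iff] at this ⊢
    rw [← map_smul, this, map_zero]
  let βY : Y →ₗ[B] Y := βL.restrict hβY
  have hx₀Y : x₀ ∈ Y := by
    rw [hmemY]
    intro i
    obtain ⟨b, rfl⟩ := Nat.exists_eq_add_of_le ha
    rw [add_comm, Function.iterate_add_apply, Function.iterate_one, hz0]
    exact Function.iterate_fixed (map_zero (z i)) b
  have hcoef : ∀ s : SS t, aeval zB s • x₀ = coeff 0 s • x₀ := by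
    intro s
    induction s using MvPolynomial.induction_on with
    | C c =>
      rw [aeval_C, coeff_zero_C, hsm]
      have : ((algebraMap ℤ B c : B) : Module.End ℤ X) = algebraMap ℤ (Module.End ℤ X) c := rfl
      rw [this, Module.algebraMap_end_apply]
    | add u v hu hv => rw [map_add, add_smul, hu, hv, coeff_add, add_smul]
    | mul_X u i _ =>
      rw [map_mul, aeval_X, mul_smul, hzB, hz0, smul_zero, coeff_mul_X', if_neg (by simp),
        zero_smul]
  have hkill : ∀ s ∈ aa p t ^ b₀, aeval zB s • (⟨x₀, hx₀Y⟩ : Y) = 0 := by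
    intro s hs
    refine Subtype.ext ?_
    show aeval zB s • x₀ = 0
    obtain ⟨c, hc⟩ := (mem_aa_pow_iff hp.out.ne_zero b₀ s).1 hs 0
    rw [hcoef, hc, map_zero, Nat.sub_zero, mul_comm, mul_smul]
    have : ((p : ℤ) ^ b₀) • x₀ = 0 := by
      rw [← Nat.cast_pow, natCast_zsmul]; exact hp0
    rw [this, smul_zero]
  have key := big hp.out (B := b₀) (m := m) He βY ⟨x₀, hx₀Y⟩ hkill
    (fun h => hβ0 (congrArg Subtype.val h)) hm
  refine key.trans (Nat.card_le_card_of_injective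
    (fun y => (⟨(y.1 : X), ?_⟩ : {y : X // ∃ x : X, (∀ i, (z i)^[a] x = 0) ∧ β x = y})) ?_)
  · obtain ⟨x, hx⟩ := y.2
    exact ⟨x.1, (hmemY _).1 x.2, by rw [← hx]; rfl⟩
  · intro y y' h
    have h' := congrArg Subtype.val h
    exact Subtype.ext (Subtype.ext h')

/-- **[BASE-ABS]**, subgroup form. -/
theorem big_sub {J : Type*} [AddCommGroup J] (U : AddSubgroup J) {t p a D m B : ℕ}
    [hp : Fact p.Prime] (ha : 1 ≤ a) (z : Fin t → J →+ J) (β : J →+ J)
    (hzU : ∀ i, ∀ x ∈ U, z i x ∈ U) (hβU : ∀ x ∈ U, β x ∈ U)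
    (hfin : {x : J | x ∈ U ∧ p ^ a • x = 0}.Finite)
    (hzz : ∀ i j, ∀ x ∈ U, p ^ a • x = 0 → z i (z j x) = z j (z i x))
    (hzβ : ∀ i, ∀ x ∈ U, p ^ a • x = 0 → z i (β x) = β (z i x))
    (hcogen : Nat.card {x : J // x ∈ U ∧ p • x = 0 ∧ ∀ i, z i x = 0} ≤ p ^ D)
    (hbox : p ^ (D * a ^ (t + 1)) ≤
      Nat.card {x : J // x ∈ U ∧ p ^ a • x = 0 ∧ ∀ i, (z i)^[a] x = 0})
    (x₀ : J) (hx₀ : x₀ ∈ U) (hp0 : p ^ B • x₀ = 0) (hz0 : ∀ i, z i x₀ = 0) (hβ0 : β x₀ ≠ 0)
    (hBa : B ≤ a) (hm : (t + 1) * m + B ≤ a + 1) :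
    p ^ (m ^ (t + 1)) ≤
      Nat.card {y : J // ∃ x ∈ U, p ^ a • x = 0 ∧ (∀ i, (z i)^[a] x = 0) ∧ β x = y} := by
  classical
  let X : AddSubgroup J :=
    { carrier := {x | x ∈ U ∧ p ^ a • x = 0}
      zero_mem' := ⟨U.zero_mem, smul_zero _⟩
      add_mem' := fun {x y} hx hy => ⟨U.add_mem hx.1 hy.1, by rw [smul_add, hx.2, hy.2, add_zero]⟩
      neg_mem' := fun {x} hx => ⟨U.neg_mem hx.1, by rw [smul_neg, hx.2, neg_zero]⟩ }
  haveI : Finite X := hfin.to_subtype
  have hres : ∀ (u : J →+ J), (∀ x ∈ U, u x ∈ U) → ∀ x ∈ X, u x ∈ X := fun u h x hx =>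
    ⟨h x hx.1, by rw [← map_nsmul, hx.2, map_zero]⟩
  let zA : Fin t → X →+ X := fun i =>
    ((z i).comp X.subtype).codRestrict X fun x => hres (z i) (hzU i) x x.2
  let βA : X →+ X := (β.comp X.subtype).codRestrict X fun x => hres β hβU x x.2
  have hiter : ∀ i (k : ℕ) (x : X), (((zA i)^[k] x : X) : J) = (z i)^[k] (x : J) := by
    intro i k
    induction k with
    | zero => intro x; rfl
    | succ k ih => intro x; rw [Function.iterate_succ_apply, Function.iterate_succ_apply, ih]; rfl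
  have hpa0 : p ^ a • x₀ = 0 := by
    obtain ⟨b, rfl⟩ := Nat.exists_eq_add_of_le hBa
    rw [pow_add, mul_comm, mul_smul, hp0, smul_zero]
  have key := big_end (X := X) (D := D) (m := m) ha zA βA
    (fun i j x => Subtype.ext (hzz i j x x.2.1 x.2.2))
    (fun i x => Subtype.ext (hzβ i x x.2.1 x.2.2))
    (fun x => Subtype.ext x.2.2)
    (by
      refine le_trans (le_of_eq (Nat.card_congr ?_)) hcogen
      exact
        { toFun := fun x => ⟨x.1.1, x.1.2.1, congrArg Subtype.val x.2.1,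
            fun i => congrArg Subtype.val (x.2.2 i)⟩
          invFun := fun x => ⟨⟨x.1, x.2.1, by
              obtain ⟨b, rfl⟩ := Nat.exists_eq_add_of_le ha
              rw [pow_add, pow_one, mul_comm, mul_smul, x.2.2.1, smul_zero]⟩,
            Subtype.ext x.2.2.1, fun i => Subtype.ext (x.2.2.2 i)⟩
          left_inv := fun _ => rfl
          right_inv := fun _ => rfl })
    (by
      refine hbox.trans (le_of_eq (Nat.card_congr ?_))
      exact
        { toFun := fun x => ⟨⟨x.1, x.2.1, x.2.2.1⟩, fun i => Subtype.ext (by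
            rw [hiter]; exact x.2.2.2 i)⟩
          invFun := fun x => ⟨x.1.1, x.1.2.1, x.1.2.2, fun i => by
            rw [← hiter]; exact congrArg Subtype.val (x.2 i)⟩
          left_inv := fun _ => rfl
          right_inv := fun _ => rfl })
    ⟨x₀, hx₀, hpa0⟩ (Subtype.ext hp0) (fun i => Subtype.ext (hz0 i))
    (fun h => hβ0 (congrArg Subtype.val h)) hm
  haveI : Finite {y : J // ∃ x ∈ U, p ^ a • x = 0 ∧ (∀ i, (z i)^[a] x = 0) ∧ β x = y} :=
    ((hfin.image β).subset (by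
      rintro y ⟨x, h1, h2, -, rfl⟩
      exact ⟨x, ⟨h1, h2⟩, rfl⟩)).to_subtype
  refine key.trans (Nat.card_le_card_of_injective
    (fun y => (⟨(y.1 : J), ?_⟩ :
      {y : J // ∃ x ∈ U, p ^ a • x = 0 ∧ (∀ i, (z i)^[a] x = 0) ∧ β x = y})) ?_)
  · obtain ⟨x, hx, hxy⟩ := y.2
    exact ⟨x.1, x.2.1, x.2.2, fun i => by rw [← hiter, hx i]; rfl, by rw [← hxy]; rfl⟩
  · intro y y' h
    have h' := congrArg Subtype.val h
    exact Subtype.ext (Subtype.ext h')

end Fermat.Agent.ML.Lift
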