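import Fermat.Agent.ML.AtP.MaAtp

/-!
# ML / LIFT / Base / AtP : the field `atp` of the base cell (case (Ma))

`base_atp` = [h01] of the skeleton `ML/Lift/Base/Main.lean` : the instance `P = ∅`, `Lc = L₀` of `LCtx.atp_of_Ma`.
-/

set_option autoImplicit false

noncomputable section

open AlgebraicCurve ModularCurve

namespace Fermat.Agent.ML.Lift.Base

open Fermat.Agent.RIB Fermat.Agent.ML.ESide

local notation "GQ" => (AlgebraicClosure ℚ ≃ₐ[ℚ] AlgebraicClosure ℚ)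

variable {W : WeierstrassCurve ℤ} {p : ℕ} [Fact p.Prime] {T : Finset ℕ}
  {b : Module.Basis (Fin 2) (ZMod p) (TorsW W p)} {L₀ : ℕ} [NeZero L₀] {eps : ℕ → ℤ} {eP : GQ → ℤ}

/-- the field `atp` of the base cell (case (Ma)). -/
theorem base_atp (hLow : LowerStmt) (X : LCtx W p T b L₀ eps eP) {t n a : ℕ}
    {qv : Fin t → Nat.Primes}
    (tw : ∀ L₁ : ℕ, (∀ r : ℕ, r.Prime → r ∣ L₁ * p → r ∈ T) → 4 ∣ L₁ →
      MTW p T W.apOfModel L₁ t n qv)
    (G : AddSubgroup (JZero (lvl L₀ (extP qv) t)))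
    (hle : G ≤ thetaPart (lvl L₀ (extP qv) t) p (↑(cutS T qv) : Set ℕ) W.apOfModel)
    (hgal : ∀ g : GQ, ∀ x ∈ G, g • x ∈ G) (hGa : ∀ x ∈ G, p ^ a • x = 0) (hpL : p ∣ L₀) :
    LocPSt p eP a (G : Set (JZero (lvl L₀ (extP qv) t))) :=
  X.atp_of_Ma hLow hpL (Finset.empty_subset _) L₀ (by simp [cellLevel]) tw hle hgal hGa

end Fermat.Agent.ML.Lift.Base
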