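import Fermat.Agent.ML.Low.Rho.Tame
import Fermat.Agent.ML.Rho.TameK
import Fermat.Agent.ML.At2.Loc.Alg
import Fermat.Agent.ML.Main.Cell

/-!
# ML / Lift / Base / Plain2 : the PLAIN lemmas at the prime `2`, at ANY level `N`

`C : MCtx p T θ rbar0`, `S ⊇ T` containing the primes of `N p`.

* `locUnip_two_theta` : `p ≠ 3` ⟹ `LocUnip 2 (thetaPart N p S θ)`                               ((5r), also (5g), (5s));
* `locUr_two_theta` : `rbar0` unramified at `2`, not `Mixed2` ⟹ `LocUr 2 (thetaPart N p S θ)`     ((5g), (3g)).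

Route : `ρ` on `thetaPart N [p^(j+1)]` (`exists_rho_tors`), the tame relation `ρ(φ) ρ(σ) = ρ(σ)² ρ(φ)` (`Rho/TameK`), and the `2 × 2`
algebra of `At2/Loc/Alg` (`z (z + 3) = 0`, `z tr Φ = 0`, `(9 - (tr Φ)²) N = 0`).
-/

set_option autoImplicit false
set_option linter.unusedSectionVars false
set_option linter.style.haveILetI false

noncomputable section

open AlgebraicCurve ModularCurve Module

namespace Fermat.Agent.ML.Lift

open Fermat.Agent.RIB Fermat.Agent.RIB.Rho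
open Fermat.Agent.GAL Fermat.Agent.GAL.PC Fermat.Agent.TW.TR

local notation "Qbar" => AlgebraicClosure ℚ
local notation "GQ" => (AlgebraicClosure ℚ ≃ₐ[ℚ] AlgebraicClosure ℚ)
local notation "M₂" => Matrix (Fin 2) (Fin 2)

/-- `(X - 1)² = 0` in characteristic `p` gives `X ^ p = 1`. -/
theorem plain2_pow_eq_one {p : ℕ} [Fact p.Prime] {X : M₂ (ZMod p)} (h : (X - 1) * (X - 1) = 0) :
    X ^ p = 1 := by
  have hp : p.Prime := Fact.out
  have e : X = (X - 1) + 1 := by abel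
  have h1 : (X - 1) ^ p = 0 := pow_eq_zero_of_le hp.two_le (by rw [pow_two, h])
  rw [e, add_pow_char_of_commute p (Commute.one_right _), h1, one_pow, zero_add]

/-- `(X - 1)² = 0` over a field gives `tr X = 2`. -/
theorem plain2_trace_eq_two {k : Type*} [Field k] {X : M₂ k} (h : (X - 1) * (X - 1) = 0) :
    X.trace = 2 := by
  have h1 : IsNilpotent (X - 1) := ⟨2, by rw [pow_two, h]⟩
  have h2 : IsNilpotent (X - 1).trace := Matrix.isNilpotent_trace_of_isNilpotent h1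
  have h3 : (X - 1).trace = 0 := h2.eq_zero
  rw [Matrix.trace_sub, Matrix.trace_one, Fintype.card_fin, sub_eq_zero] at h3
  rw [h3]
  norm_num

/-- `(X ^ a - 1) (X ^ b - 1) = 0` if `(X - 1)² = 0`. -/
theorem plain2_pow_sub_mul {R : Type*} [CommRing R] {X : M₂ R} (h : (X - 1) * (X - 1) = 0)
    (a b : ℕ) : (X ^ a - 1) * (X ^ b - 1) = 0 := by
  rw [At2.Loc.pow_sub_one_eq a, At2.Loc.pow_sub_one_eq b]
  have hc : Commute (∑ i ∈ Finset.range a, X ^ i) (X - 1) := by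
    refine Commute.sum_left _ _ _ fun i _ => ?_
    exact ((Commute.refl X).pow_left i).sub_right (Commute.one_right _)
  calc ((X - 1) * ∑ i ∈ Finset.range a, X ^ i) * ((X - 1) * ∑ i ∈ Finset.range b, X ^ i)
      = (X - 1) * ((∑ i ∈ Finset.range a, X ^ i) * (X - 1)) * ∑ i ∈ Finset.range b, X ^ i := by
        simp only [mul_assoc]
    _ = (X - 1) * (X - 1) * (∑ i ∈ Finset.range a, X ^ i) * ∑ i ∈ Finset.range b, X ^ i := by
        rw [hc.eq]; simp only [mul_assoc]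
    _ = 0 := by rw [h, zero_mul, zero_mul]

variable {p : ℕ} [Fact p.Prime] {T : Finset ℕ} {θ : ℕ → ℤ} {rbar0 : GQ →* M₂ (ZMod p)}

set_option maxHeartbeats 1600000 in
/-- the two statements at one place `A ∣ 2` and one point `x`. -/
theorem plain2_aux (C : MCtx p T θ rbar0) (S : Finset ℕ) (hTS : T ⊆ S) (N : ℕ) [NeZero N]
    (hN : ∀ r : ℕ, r.Prime → r ∣ N * p → r ∈ S) {A : ValuationSubring Qbar}
    (hA : A.LiesOverPrime 2) {x : JZero N} (hx : x ∈ thetaPart N p (↑S : Set ℕ) θ) :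
    (p ≠ 3 → ∀ τ ∈ A.inertiaSubgroupIn ℚ, ∀ τ' ∈ A.inertiaSubgroupIn ℚ,
      τ' • (τ • x - x) = τ • x - x) ∧
    (¬ Ram rbar0 2 → ¬ Mixed2 rbar0 → ∀ τ ∈ A.inertiaSubgroupIn ℚ, τ • x = x) := by
  have hp : p.Prime := Fact.out
  have h2p : (2 : ℕ) ≠ p := fun h => C.hp2 h.symm
  have hl : (2 : ℕ).Prime := Nat.prime_two
  obtain ⟨j, hj⟩ := hx.1
  set m : ℕ := p ^ (j + 1) with hm
  haveI : NeZero m := ⟨pow_ne_zero _ hp.ne_zero⟩
  have hxm : x ∈ thTors N p m (↑S : Set ℕ) θ :=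
    ⟨hx, by rw [hm, pow_succ, mul_comm, mul_smul, hj, smul_zero]⟩
  obtain ⟨σ₀, τ₀, u0, hu0, hnf⟩ := C.nf
  obtain ⟨R, iC, iA, iM, iT, iF, t, ρ, Φ, h1, h2, h3, h4, h5, h6, h7, -, h8⟩ :=
    exists_rho_tors (V := ↥(thTors N p m (↑S : Set ℕ) θ)) (m := m)
      (thTors N p m (↑S : Set ℕ) θ).subtype
      Subtype.val_injective (fun _ _ => rfl) hp (j := j + 1) hm
      (dvd_pow_self p (Nat.succ_ne_zero j)) S hN θ
      (fun r hr v => v.2.1.2 r (fun h => hr (Finset.mem_coe.1 h)))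
      rbar0 C.cont (fun r hr hrS => C.frob r hr (fun h => hrS (hTS h)))
      (inv_mul_cancel₀ C.two_ne_zero) complexConjugation_mul_self
      (chiM_complexConjugation m) hu0
  -- transfer of matrix identities
  have hur : ∀ τ : GQ, ρ τ = 1 → τ • x = x := by
    intro τ hτ
    have := h6 τ ⟨x, hxm⟩
    rw [hτ, map_one] at this
    exact (congrArg Subtype.val this).symm
  have hΦ1 : ∀ (g : GQ) (v : ↥(thTors N p m (↑S : Set ℕ) θ)), Φ (ρ g - 1) v = g • v - v := by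
    intro g v
    rw [map_sub, map_one, LinearMap.sub_apply]
    show Φ (ρ g) v - v = g • v - v
    rw [h6]
  have hun2 : ∀ τ τ' : GQ, (ρ τ' - 1) * (ρ τ - 1) = 0 → τ' • (τ • x - x) = τ • x - x := by
    intro τ τ' h
    have e : Φ ((ρ τ' - 1) * (ρ τ - 1)) ⟨x, hxm⟩ = 0 := by
      rw [h, map_zero, LinearMap.zero_apply]
    rw [map_mul, Module.End.mul_apply, hΦ1, hΦ1] at e
    have e' := congrArg Subtype.val e
    exact sub_eq_zero.1 e'
  rcases subsingleton_or_nontrivial R with hs | hn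
  · exact ⟨fun _ τ _ τ' _ => hun2 τ τ' (Subsingleton.elim _ _),
      fun _ _ τ _ => hur τ (Subsingleton.elim _ _)⟩
  set I : Ideal R := nilradical R with hI
  obtain ⟨K, hK⟩ : ∃ K : ℕ, I ^ K = ⊥ := IsNoetherianRing.isNilpotent_nilradical R
  have hpI : (p : R) ∈ I := by
    rw [hI, mem_nilradical]
    refine ⟨j + 1, ?_⟩
    rw [← Nat.cast_pow, ← hm, ← map_natCast (algebraMap (ZMod m) R), ZMod.natCast_self, map_zero]
  have hItop : I ≠ ⊤ := by
    intro h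
    have h1' : (1 : R) ∈ I := h ▸ Submodule.mem_top
    rw [hI, mem_nilradical] at h1'
    obtain ⟨n, hn'⟩ := h1'
    rw [one_pow] at hn'
    exact one_ne_zero hn'
  haveI : Nontrivial (R ⧸ I) := Ideal.Quotient.nontrivial_iff.2 hItop
  set κ : R →+* R ⧸ I := Ideal.Quotient.mk I with hκdef
  haveI : CharP (R ⧸ I) p := (CharP.charP_iff_prime_eq_zero hp).2 (by
    rw [← map_natCast κ]
    exact Ideal.Quotient.eq_zero_iff_mem.2 hpI)
  set ψ : ZMod p →+* R ⧸ I := ZMod.castHom (dvd_refl p) (R ⧸ I) with hψ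
  have hκ : ∀ x, IsNilpotent x → κ x = 0 := fun x hx =>
    Ideal.Quotient.eq_zero_iff_mem.2 (mem_nilradical.2 hx)
  have hmap : ∀ g, (ρ g).map κ = (rbar0 g).map ψ := fun g => by
    rw [hnf g]; exact (h8 (R ⧸ I) κ ψ hκ g).2
  have htr : ∀ g, κ ((ρ g).trace) = ψ ((rbar0 g).trace) := fun g => by
    rw [h4, (h8 (R ⧸ I) κ ψ hκ g).1]
  -- units
  have hunit : ∀ (a : R) (c : ZMod p), κ a = ψ c → c ≠ 0 → IsUnit a := by
    intro a c hac hc
    rw [← IsNilpotent.isUnit_quotient_mk_iff (I := I) ⟨K, hK⟩]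
    show IsUnit (κ a)
    rw [hac]
    exact (IsUnit.mk0 c hc).map ψ
  -- `ρ` has finite level
  have hcont : GaloisFactorsThroughFiniteLevel ρ := by
    obtain ⟨F, hF1, hF2⟩ := exists_level_torsion N m (NeZero.ne m)
    refine ⟨F, hF1, fun σ hσ => sub_eq_zero.1 (h7 _ fun v => ?_)⟩
    rw [hΦ1, sub_eq_zero]
    exact Subtype.ext (hF2 σ hσ v.1 v.2.2)
  -- residually unipotent
  have hsq : ∀ σ ∈ A.inertiaSubgroupIn ℚ, (rbar0 σ - 1) * (rbar0 σ - 1) = 0 := fun σ hσ =>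
    C.unipI 2 hl h2p A hA σ hσ σ hσ
  have hun : ∀ σ ∈ A.inertiaSubgroupIn ℚ, ∀ a b, (ρ σ ^ (p ^ 1) - 1) a b ∈ I := by
    intro σ hσ a b
    have e : (ρ σ ^ (p ^ 1)).map κ = 1 := by
      have e1 : (ρ σ ^ (p ^ 1)).map κ = ((ρ σ).map κ) ^ (p ^ 1) := map_pow κ.mapMatrix (ρ σ) _
      have e2 : ((rbar0 σ).map ψ) ^ (p ^ 1) = (rbar0 σ ^ (p ^ 1)).map ψ :=
        (map_pow ψ.mapMatrix (rbar0 σ) _).symm
      rw [e1, hmap, e2, pow_one, plain2_pow_eq_one (hsq σ hσ),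
        Matrix.map_one ψ (map_zero ψ) (map_one ψ)]
    have e2 : κ ((ρ σ ^ (p ^ 1) - 1) a b) = 0 := by
      have e3 : κ ((ρ σ ^ (p ^ 1)) a b) = (1 : M₂ (R ⧸ I)) a b := congrFun (congrFun e a) b
      have e4 : κ ((1 : M₂ R) a b) = (1 : M₂ (R ⧸ I)) a b :=
        congrFun (congrFun (Matrix.map_one κ (map_zero κ) (map_one κ)) a) b
      rw [Matrix.sub_apply, map_sub, e3, e4, sub_self]
    exact Ideal.Quotient.eq_zero_iff_mem.1 e2
  obtain ⟨φ, hφ⟩ := Fermat.Agent.S54.exists_isFrobeniusAt_of_liesOverPrime hl A hA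
  have hlm : Nat.Coprime 2 m := by
    rw [hm]
    exact Nat.Coprime.pow_right _ ((Nat.coprime_primes hl hp).2 h2p)
  have hrel : ∀ σ ∈ A.inertiaSubgroupIn ℚ, ρ φ * ρ σ = ρ σ * ρ σ * ρ φ := fun σ hσ => by
    rw [← pow_two]
    exact tame_conj hp hl h2p hA hcont hK hpI 1 hun hφ hσ
  have hdetI : ∀ σ ∈ A.inertiaSubgroupIn ℚ, (ρ σ).det = 1 := fun σ hσ => by
    rw [h5, chiM_apply, cycloChar_of_mem_inertia' m hl hlm hA hσ, Units.val_one, map_one]
  have hdetφ : (ρ φ).det = 2 := by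
    rw [h5, chiM_apply, cycloChar_of_isFrobeniusAt' m hl hlm hA hφ, map_natCast, Nat.cast_ofNat]
  have h2u : IsUnit (2 : R) :=
    hunit 2 2 (by rw [map_ofNat, map_ofNat]) C.two_ne_zero
  have h3u : p ≠ 3 → ∀ σ ∈ A.inertiaSubgroupIn ℚ, IsUnit ((ρ σ).trace + 1) := by
    intro hp3 σ hσ
    refine hunit _ 3 ?_ ?_
    · rw [map_add, map_one, htr, plain2_trace_eq_two (hsq σ hσ), map_ofNat, map_ofNat]
      norm_num
    · intro h
      have h' : ((3 : ℕ) : ZMod p) = 0 := by exact_mod_cast h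
      rw [ZMod.natCast_eq_zero_iff] at h'
      exact hp3 ((Nat.prime_dvd_prime_iff_eq hp Nat.prime_three).1 h')
  refine ⟨fun hp3 τ hτ τ' hτ' => hun2 τ τ' ?_, fun hram hmix τ hτ => hur τ ?_⟩
  · obtain ⟨τ₁, hτ₁, hgen⟩ := exists_tame_gen hp hl h2p hA hcont hK hpI 1 hun
    obtain ⟨n, hn⟩ := hgen τ hτ
    obtain ⟨n', hn'⟩ := hgen τ' hτ'
    rw [hn, hn']
    refine plain2_pow_sub_mul ?_ n' n
    exact At2.Loc.N_mul_N_of_trace (hdetI τ₁ hτ₁)
      (At2.Loc.trace_eq_two_of_isUnit_add (hrel τ₁ hτ₁) (hdetI τ₁ hτ₁) (hdetφ ▸ h2u)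
        (h3u hp3 τ₁ hτ₁))
  · have h9 : (rbar0 φ).trace ^ 2 ≠ 9 := fun h => hmix ⟨A, hA, φ, hφ, h⟩
    refine At2.Loc.eq_one_of_isUnit (hrel τ hτ) (hdetI τ hτ) hdetφ h2u ?_ ?_
    · by_cases hp3 : p = 3
      · left
        refine hunit _ _ (htr φ) ?_
        intro h0
        apply h9
        rw [h0]
        have h' : ((9 : ℕ) : ZMod p) = 0 := by
          rw [ZMod.natCast_eq_zero_iff, hp3]
          norm_num
        have h'' : (9 : ZMod p) = 0 := by exact_mod_cast h'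
        rw [h'']
        ring
      · exact Or.inr (h3u hp3 τ hτ)
    · refine hunit _ (9 - (rbar0 φ).trace ^ 2) ?_ (sub_ne_zero.2 (Ne.symm h9))
      rw [map_sub, map_pow, htr, map_sub, map_pow, map_ofNat, map_ofNat]

/-- **(5r)** (and (5g), (5s)) : `p ≠ 3` ⟹ the inertia at `2` is unipotent on `thetaPart N`, at ANY level `N`. -/
theorem locUnip_two_theta (C : MCtx p T θ rbar0) (S : Finset ℕ) (hTS : T ⊆ S) (N : ℕ) [NeZero N]
    (hN : ∀ r : ℕ, r.Prime → r ∣ N * p → r ∈ S) (hp3 : p ≠ 3) :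
    LocUnip 2 ((thetaPart N p (↑S : Set ℕ) θ : AddSubgroup (JZero N)) : Set (JZero N)) :=
  fun _ hA τ hτ τ' hτ' _ hx => (plain2_aux C S hTS N hN hA hx).1 hp3 τ hτ τ' hτ'

/-- **(5g), (3g)** : `rbar0` unramified at `2`, not mixed ⟹ `thetaPart N` is unramified at `2`, at ANY level `N`. -/
theorem locUr_two_theta (C : MCtx p T θ rbar0) (S : Finset ℕ) (hTS : T ⊆ S) (N : ℕ) [NeZero N]
    (hN : ∀ r : ℕ, r.Prime → r ∣ N * p → r ∈ S) (hram : ¬ Ram rbar0 2) (hmix : ¬ Mixed2 rbar0) :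
    LocUr 2 ((thetaPart N p (↑S : Set ℕ) θ : AddSubgroup (JZero N)) : Set (JZero N)) :=
  fun _ hA τ hτ _ hx => (plain2_aux C S hTS N hN hA hx).2 hram hmix τ hτ

end Fermat.Agent.ML.Lift
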