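import Fermat.Agent.ML.Lift.Base.Plain
import Fermat.Agent.ML.Lift.Base.Loc
import Fermat.Agent.ML.At2.N2.Geo
import Fermat.Agent.ML.Lift.Base.AtP
import Fermat.Agent.ML.Lift.Base.Plain2

/-!
# ML / LIFT / Base / Main : `BaseCellStmt`

The base cell `G = topJ (β (Xnew[p^a, z^a]))` at the level `L₀ = 4M`, with the multiplier
* `β = 1` in the cases (5g), (3g) (`rbar0` unramified at `2`, not mixed) and (5r) (`rbar0` ramified at `2`, `p ≠ 3`);
* `β = β_2 = d_1^* d_{1 *}` in the mixed case;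
* `β = e_2 = δ_0^* δ_{0 *}` in the case (3r).
-/

set_option autoImplicit false
set_option linter.unusedSectionVars false

noncomputable section

open AlgebraicCurve ModularCurve

namespace Fermat.Agent.ML.Lift.Base

open Fermat.Agent.RIB Fermat.Agent.GAL Fermat.Agent.GAL.PC Fermat.Agent.ML.TWFree
  Fermat.Agent.ML.ESide Fermat.Agent.ML.At2

local notation "Qbar" => AlgebraicClosure ℚ
local notation "GQ" => (AlgebraicClosure ℚ ≃ₐ[ℚ] AlgebraicClosure ℚ)
local notation "M₂" => Matrix (Fin 2) (Fin 2)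

section Aux

variable {p : ℕ} [Fact p.Prime] {T : Finset ℕ} {θ : ℕ → ℤ}

/-- a non zero class of order `p` at the base vertex. -/
theorem exists_base_vertex {S : Set ℕ} (L : ℕ) [NeZero L] {t : ℕ} (qv : Fin t → Nat.Primes)
    (h : WS L p S θ ≠ ⊥) :
    ∃ v ∈ thetaPart (lev L qv ∅) p S θ, p • v = 0 ∧ v ≠ 0 := by
  obtain ⟨⟨w, hw⟩, hw0⟩ := AddSubgroup.ne_bot_iff_exists_ne_zero.1 h
  refine ⟨castJ (lev_empty L qv).symm w, (castJ_mem_thetaPart _).2 hw.1, ?_, fun h0 => hw0 ?_⟩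
  · rw [← map_nsmul, hw.2, map_zero]
  · exact Subtype.ext ((AddEquiv.map_eq_zero_iff _).1 h0)

theorem thetaPart_ne_bot_of_WS {S S' : Set ℕ} (hS : S ⊆ S') (L : ℕ) [NeZero L]
    (h : WS L p S θ ≠ ⊥) : thetaPart L p S' θ ≠ ⊥ := by
  obtain ⟨⟨w, hw⟩, hw0⟩ := AddSubgroup.ne_bot_iff_exists_ne_zero.1 h
  intro h0
  have h1 : w ∈ thetaPart L p S' θ := thetaPart_mono hS hw.1
  rw [h0, AddSubgroup.mem_bot] at h1
  exact hw0 (Subtype.ext h1)

end Aux

variable {W : WeierstrassCurve ℤ} {p : ℕ} [Fact p.Prime] {T : Finset ℕ}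
  {b : Module.Basis (Fin 2) (ZMod p) (TorsW W p)} {L₀ : ℕ} [NeZero L₀] {eps : ℕ → ℤ} {eP : GQ → ℤ}

/-- **the base cell**. -/
theorem baseCell_aux (hLow : LowerStmt)
    (X : LCtx W p T b L₀ eps eP) {t a m n K : ℕ} {qv : Fin t → Nat.Primes}
    (F : Frm p X.C.hp2 T W.apOfModel (rbarB b) t 1 0 a m n K qv) :
    ∃ G : AddSubgroup (JZero (lvl L₀ (extP qv) t)),
      IsCell p T W.apOfModel (rbarB b) eps eP L₀ qv a ∅ G ∧ p ^ (m ^ (t + 1)) ≤ Nat.card G := by
  classical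
  have hp : p.Prime := Fact.out
  have EC := X.C
  obtain ⟨M, hL, hodd, hsq⟩ := X.BP.shape
  have h4 : 4 ∣ L₀ := ⟨M, by rw [hL]; ring⟩
  have TC : MTW p T W.apOfModel L₀ t n qv := F.tw L₀ X.BP.levT h4
  have haF := F.ha
  have ha1 : 1 ≤ a := by omega
  have hmB : (t + 1) * m + 1 ≤ a + 1 := by omega
  have hcS : (↑T : Set ℕ) ⊆ (↑(cutS T qv) : Set ℕ) := Finset.coe_subset.2 (subset_cutS T qv)
  -- the constructor
  have mk : ∀ G : AddSubgroup (JZero (lvl L₀ (extP qv) t)),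
      G ≤ thetaPart (lvl L₀ (extP qv) t) p (↑(cutS T qv) : Set ℕ) W.apOfModel →
      (∀ g : GQ, ∀ x ∈ G, g • x ∈ G) → (∀ x ∈ G, InBox p qv a x) →
      (∀ x ∈ G, ∀ i : Fin t, Tower.IsNewAt (lvl L₀ (extP qv) t) ((qv i : Nat.Primes) : ℕ) x) →
      (¬ Ram (rbarB b) 2 → LocUr 2 (G : Set (JZero (lvl L₀ (extP qv) t)))) →
      (Ram (rbarB b) 2 → LocUnip 2 (G : Set (JZero (lvl L₀ (extP qv) t)))) →
      IsCell p T W.apOfModel (rbarB b) eps eP L₀ qv a ∅ G := by
    intro G le gal box new ur2 unip2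
    exact X.isCell_mk (Finset.empty_subset _) (by simp [cellLevel]) TC.notT G le gal box new
      (fun q hq => absurd hq (Finset.notMem_empty q)) (fun _ => ur2)
      (fun h => unip2 (h.resolve_left (Finset.notMem_empty 2)))
      (base_atp hLow X F.tw G le gal (fun x hx => (box x hx).1))
  -- the plain case
  have plain : (¬ Ram (rbarB b) 2 → LocUr 2
        (thetaPart (lvl L₀ (extP qv) t) p (↑(cutS T qv) : Set ℕ) W.apOfModel :
          Set (JZero (lvl L₀ (extP qv) t)))) →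
      (Ram (rbarB b) 2 → LocUnip 2
        (thetaPart (lvl L₀ (extP qv) t) p (↑(cutS T qv) : Set ℕ) W.apOfModel :
          Set (JZero (lvl L₀ (extP qv) t)))) →
      ∃ G : AddSubgroup (JZero (lvl L₀ (extP qv) t)),
        IsCell p T W.apOfModel (rbarB b) eps eP L₀ qv a ∅ G ∧
          p ^ (m ^ (t + 1)) ≤ Nat.card G := by
    intro h1 h2
    have hocc : WS L₀ p (↑(cutS T qv) : Set ℕ) W.apOfModel ≠ ⊥ := fun h =>
      X.BP.occ (eq_bot_iff.2 (h ▸ WS_mono hcS))
    obtain ⟨v, hv, hpv, hv0⟩ := exists_base_vertex L₀ qv hocc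
    obtain ⟨G, le, gal, box, new, big, -⟩ := cell_of_mult EC TC ha1 F.hn (B := 1) ha1 hmB
      (fun Q => AddMonoidHom.id _) (fun _ _ => rfl) (fun _ _ _ _ _ _ => rfl) (fun x hx => hx)
      (fun x hx => hx) v hv (by rwa [pow_one]) hv0
    exact ⟨G, mk G le gal box new (fun h => (h1 h).mono le) (fun h => (h2 h).mono le), big⟩
  have hSN : ∀ r : ℕ, r.Prime → r ∣ lvl L₀ (extP qv) t * p → r ∈ cutS T qv :=
    fun r hr hd => TC.mem_cutS t hr hd
  have : NeZero M := ⟨by rintro rfl; simp at hodd⟩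
  have hM2 : ¬ 2 ∣ M := hodd.not_two_dvd_nat
  have hqv2 : ∀ i, ((qv i : Nat.Primes) : ℕ) ≠ 2 := fun i h => TC.notT i (h ▸ EC.two_mem)
  have hqvp : ∀ i, ((qv i : Nat.Primes) : ℕ) ≠ p := fun i h => TC.notT i (h ▸ EC.p_mem)
  have h2S : 2 ∈ (↑(cutS T qv) : Set ℕ) := Finset.mem_coe.2 (subset_cutS T qv EC.two_mem)
  have hAP := EC.nonEis (cutS T qv)
  by_cases hR : Ram (rbarB b) 2
  · by_cases hp3 : p = 3
    · -- (3r)
      subst hL
      have hS : ∀ Q : Finset (Fin t), ∀ r : ℕ, r.Prime → r ∉ (↑(cutS T qv) : Set ℕ) →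
          ¬ r ∣ lev (M * 4) qv Q * p := fun Q r hr hrS hd =>
        hrS (Finset.mem_coe.2 (Tau.mem_cutS_lev TC Q hr hd))
      have hb : ∀ (Q : Finset (Fin t)) (l : Fin t), l ∉ Q →
          ¬ ((qv l : Nat.Primes) : ℕ) ∣ lev (M * 4) qv Q * p := by
        intro Q l hl hd
        rcases (Nat.Prime.dvd_mul (qv l).2).1 hd with h | h
        · exact Tau.not_dvd_lev TC hl h
        · exact hqvp l ((Nat.prime_dvd_prime_iff_eq (qv l).2 hp).1 h)
      have hocc : WS (M * 2) p (↑T : Set ℕ) W.apOfModel ≠ ⊥ := (X.BP.occ2 M rfl).2 hR hp3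
      have hne : thetaPart (lev (M * 2) qv ∅) p (↑(cutS T qv) : Set ℕ) W.apOfModel ≠ ⊥ :=
        thetaPart_lev_empty_ne_bot (M * 2) (thetaPart_ne_bot_of_WS hcS (M * 2) hocc)
      obtain ⟨v, hv, hpv, hbv⟩ := exists_e2_ne_zero hp EC.hp2 ∅ (hS ∅) hne
      obtain ⟨G, le, gal, box, new, big, hG⟩ := cell_of_mult EC TC ha1 F.hn (B := 1) ha1 hmB
        (e2 M qv) (e2_smul Finset.univ)
        (fun Q Q' l v hl hv => e2_xv Q Q' l (hqv2 l).symm (hb Q l hl) v hv)
        (fun x hx => e2_mem_newPart Finset.univ (hS Finset.univ) Finset.univ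
          (fun a _ => (hqv2 a).symm) hx)
        (fun x hx => e2_mem_thetaPart ∅ (hS ∅) hx) v hv (by rwa [pow_one]) hbv
      refine ⟨G, mk G le gal box new (fun h => absurd hR h) (fun _ => ?_), big⟩
      have hlev : lev (M * 2) qv Finset.univ = lev M qv Finset.univ * 2 :=
        lev_mul qv rfl Finset.univ
      have hodd' : ¬ 2 ∣ lev M qv Finset.univ := not_two_dvd_lev hM2 hqv2 Finset.univ
      have h1 : LocUnip 2 (ptors (JZero (lev (M * 2) qv Finset.univ)) p :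
          Set (JZero (lev (M * 2) qv Finset.univ))) :=
        Lift.locUnip_of_exact Nat.prime_two hp (Ne.symm EC.hp2) (hlev ▸ Dvd.intro_left _ rfl)
          (fun h => hodd' (by
            rw [hlev, pow_two] at h
            exact Nat.dvd_of_mul_dvd_mul_right (by norm_num) h)) _ (fun x hx => hx)
      have h2 := h1.image ((topJ (M * 4) qv).toAddMonoidHom.comp (delUp M qv Finset.univ 0))
        (fun g x => by
          show topJ (M * 4) qv (delUp M qv Finset.univ 0 (g • x)) =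
            g • topJ (M * 4) qv (delUp M qv Finset.univ 0 x)
          rw [delUp_smul, topJ_smul])
      refine h2.mono fun x hx => ?_
      obtain ⟨x₁, g1, -, rfl⟩ := hG x hx
      exact ⟨delDn M qv Finset.univ 0 x₁, SS.map_mem_ptors' _ (Xnew_le _ g1).1, rfl⟩
    · -- (5r)
      exact plain (fun h => absurd hR h) (fun _ =>
        Lift.locUnip_two_theta EC (cutS T qv) (subset_cutS T qv) _ hSN hp3)
  · by_cases hMx : Mixed2 (rbarB b)
    · -- mixed
      subst hL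
      have hS : ∀ Q : Finset (Fin t), ∀ r : ℕ, r.Prime → r ∉ (↑(cutS T qv) : Set ℕ) →
          ¬ r ∣ lev (M * 4) qv Q * p := fun Q r hr hrS hd =>
        hrS (Finset.mem_coe.2 (Tau.mem_cutS_lev TC Q hr hd))
      have hb : ∀ (Q : Finset (Fin t)) (l : Fin t), l ∉ Q →
          ¬ ((qv l : Nat.Primes) : ℕ) ∣ lev (M * 4) qv Q * p := by
        intro Q l hl hd
        rcases (Nat.Prime.dvd_mul (qv l).2).1 hd with h | h
        · exact Tau.not_dvd_lev TC hl h
        · exact hqvp l ((Nat.prime_dvd_prime_iff_eq (qv l).2 hp).1 h)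
      have hocc : WS M p (↑T : Set ℕ) W.apOfModel ≠ ⊥ := (X.BP.occ2 M rfl).1 hR hMx
      have hne : thetaPart (lev M qv ∅) p (↑(cutS T qv) : Set ℕ) W.apOfModel ≠ ⊥ :=
        thetaPart_lev_empty_ne_bot M (thetaPart_ne_bot_of_WS hcS M hocc)
      obtain ⟨v, hv, hpv, hbv⟩ := exists_beta2_ne_zero hp EC.hp2 hAP h2S ∅
        (not_two_dvd_lev hM2 hqv2 ∅) (hS ∅) hne
      obtain ⟨G, le, gal, box, new, big, hG⟩ := cell_of_mult EC TC ha1 F.hn (B := 1) ha1 hmB
        (beta2 M qv) (beta2_smul Finset.univ)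
        (fun Q Q' l v hl hv => beta2_xv Q Q' l (hqv2 l).symm (hb Q l hl) v hv)
        (fun x hx => beta2_mem_newPart Finset.univ (hS Finset.univ) Finset.univ
          (fun a _ => (hqv2 a).symm) hx)
        (fun x hx => beta2_mem_thetaPart ∅ (hS ∅) hx) v hv (by rwa [pow_one]) hbv
      refine ⟨G, mk G le gal box new (fun _ => ?_) (fun h => absurd h hR), big⟩
      intro A hA τ hτ x hx
      obtain ⟨x₁, g1, -, rfl⟩ := hG x hx
      have h2' : ¬ 2 ∣ lev M qv Finset.univ * p := by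
        intro h
        rcases (Nat.Prime.dvd_mul Nat.prime_two).1 h with h | h
        · exact not_two_dvd_lev hM2 hqv2 Finset.univ h
        · exact EC.hp2 ((Nat.prime_dvd_prime_iff_eq Nat.prime_two hp).1 h).symm
      rw [← topJ_smul, smul_beta2 Finset.univ h2' hA hτ (Xnew_le _ g1).1]
    · -- (5g), (3g)
      exact plain (fun _ =>
        Lift.locUr_two_theta EC (cutS T qv) (subset_cutS T qv) _ hSN hR hMx)
        (fun h => absurd h hR)

/-- **(C-BASE)**. -/
theorem baseCellStmt_of (hLow : LowerStmt) : BaseCellStmt := by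
  intro W p _ T b L₀ _ eps eP X t
  refine ⟨1, 0, fun a m n K qv F Lc _ hLc => ?_⟩
  have hLc' : Lc = L₀ := by rw [hLc]; simp [cellLevel]
  subst hLc'
  exact baseCell_aux hLow X F

end Fermat.Agent.ML.Lift.Base
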