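import Fermat.Agent.ML.TWFree.Top
import Fermat.Agent.ML.TWFree.Inst.InBox
import Fermat.Agent.ML.Lift.Inst.New
import Fermat.Agent.ML.Lift.Base.Abs
import Fermat.Agent.ML.Main.LocCalc

/-!
# ML / LIFT / Base / Plain : the base cell, with a multiplier

`N := lev L₀ qv univ`, `X := Xnew .. univ ≤ J₀(N)`, `τ i` generators of the inertia groups at the Taylor-Wiles primes, `β` a
`G_ℚ`-equivariant endomorphism of `J₀(N)` with `β X ≤ X`.  From the numerics COGEN / BOX of `X` and ONE class `x₀ ∈ X[p^B, z]` with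
`β x₀ ≠ 0` :

`G := topJ (β (X[p^a, z^a]))` satisfies the fields `le`, `gal`, `box`, `new` of `IsCell` and is BIG.
-/

set_option autoImplicit false
set_option linter.unusedSectionVars false

noncomputable section

open AlgebraicCurve ModularCurve

namespace Fermat.Agent.ML.Lift.Base

open Fermat.Agent.RIB Fermat.Agent.GAL Fermat.Agent.GAL.PC Fermat.Agent.ML.TWFree

local notation "Qbar" => AlgebraicClosure ℚ
local notation "GQ" => (AlgebraicClosure ℚ ≃ₐ[ℚ] AlgebraicClosure ℚ)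
local notation "M₂" => Matrix (Fin 2) (Fin 2)

namespace PL

section Abs

variable {J : Type*} [AddCommGroup J] [DistribMulAction GQ J]

theorem zOp_eq_zop (τ : GQ) : (ML.zOp τ : J → J) = ⇑(TWLoc.zop τ : J →+ J) := rfl

/-- the box of a subgroup (one generator per prime). -/
def boxT (p a : ℕ) {t : ℕ} (τ : Fin t → GQ) (U : AddSubgroup J) : AddSubgroup J where
  carrier := {x | x ∈ U ∧ p ^ a • x = 0 ∧ ∀ i, (TWLoc.zop (τ i))^[a] x = 0}
  zero_mem' := ⟨U.zero_mem, smul_zero _, fun i => iterate_map_zero _ _⟩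
  add_mem' := fun {x y} hx hy => ⟨U.add_mem hx.1 hy.1, by rw [smul_add, hx.2.1, hy.2.1, add_zero],
    fun i => by rw [iterate_map_add, hx.2.2 i, hy.2.2 i, add_zero]⟩
  neg_mem' := fun {x} hx => ⟨U.neg_mem hx.1, by rw [smul_neg, hx.2.1, neg_zero],
    fun i => by rw [iterate_map_neg, hx.2.2 i, neg_zero]⟩

theorem mem_boxT {p a t : ℕ} {τ : Fin t → GQ} {U : AddSubgroup J} {x : J} :
    x ∈ boxT p a τ U ↔ x ∈ U ∧ p ^ a • x = 0 ∧ ∀ i, (TWLoc.zop (τ i))^[a] x = 0 := Iff.rfl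

/-- if `z(τ)` is central on the `m`-torsion then so are its iterates. -/
theorem zop_iterate_smul {m : ℕ} {τ : GQ}
    (hc : ∀ (h : GQ) (x : J), m • x = 0 → TWLoc.zop τ (h • x) = h • TWLoc.zop τ x) (k : ℕ) (h : GQ)
    (x : J) (hx : m • x = 0) : (TWLoc.zop τ)^[k] (h • x) = h • (TWLoc.zop τ)^[k] x := by
  induction k generalizing x with
  | zero => rfl
  | succ k ih =>
    rw [Function.iterate_succ_apply, Function.iterate_succ_apply, hc h x hx]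
    exact ih _ (by rw [← map_nsmul, hx, map_zero])

theorem zop_map {J' : Type*} [AddCommGroup J'] [DistribMulAction GQ J'] (f : J →+ J')
    (hf : ∀ (g : GQ) x, f (g • x) = g • f x) (τ : GQ) (x : J) :
    f (TWLoc.zop τ x) = TWLoc.zop τ (f x) := by
  rw [TWLoc.zop_apply, TWLoc.zop_apply, map_sub, map_add, hf, hf, map_nsmul]

theorem zop_iterate_map {J' : Type*} [AddCommGroup J'] [DistribMulAction GQ J'] (f : J →+ J')
    (hf : ∀ (g : GQ) x, f (g • x) = g • f x) (τ : GQ) (k : ℕ) (x : J) :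
    f ((TWLoc.zop τ)^[k] x) = (TWLoc.zop τ)^[k] (f x) := by
  induction k generalizing x with
  | zero => rfl
  | succ k ih => rw [Function.iterate_succ_apply, Function.iterate_succ_apply, ih, zop_map f hf]

end Abs

section Top

open Fermat.Agent.RIB.Grow Fermat.Agent.RIB.Grow.Hyp

variable {p : ℕ} {S : Set ℕ} {θ : ℕ → ℤ} {L₀ : ℕ} [NeZero L₀] {t : ℕ} {qv : Fin t → Nat.Primes}
  {τ : Fin t → GQ}

/-- the iterated `x_v` (helper34's `IsCube.exists_top`), with the commutation clause for families which commute with `x_v` only on the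
`p`-power torsion and only in the directions `l ∉ Q`. -/
theorem exists_topR (hC : IsCube p S θ L₀ qv τ) (R : Finset (Fin t)) :
    ∃ E : JZero (lev L₀ qv ∅) →+ JZero (lev L₀ qv R),
      (∀ (σ : GQ) x, E (σ • x) = σ • E x) ∧
      (∀ x ∈ thetaPart (lev L₀ qv ∅) p S θ, E x ∈ thetaPart (lev L₀ qv R) p S θ) ∧
      (∀ x ∈ thetaPart (lev L₀ qv ∅) p S θ, (∀ i ∈ R, p ^ nuP p qv i • x = 0) →
        E x ∈ Xnew p S θ L₀ qv R ∧ ∀ i ∈ R, τ i • E x = E x) ∧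
      (∀ x ∈ thetaPart (lev L₀ qv ∅) p S θ, E x = 0 → x = 0) ∧
      (∀ b : ∀ Q : Finset (Fin t), JZero (lev L₀ qv Q) →+ JZero (lev L₀ qv Q),
        (∀ (Q Q' : Finset (Fin t)) (l : Fin t) (v : JZero (lev L₀ qv Q)), l ∉ Q →
          v ∈ ptors (JZero (lev L₀ qv Q)) p →
          b Q' (xv (TQ L₀ qv Q l) (ioQ L₀ qv Q Q' l) v) =
            xv (TQ L₀ qv Q l) (ioQ L₀ qv Q Q' l) (b Q v)) →
        ∀ x ∈ thetaPart (lev L₀ qv ∅) p S θ, b R (E x) = E (b ∅ x)) := by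
  induction R using Finset.induction_on with
  | empty =>
    refine ⟨AddMonoidHom.id _, fun _ _ => rfl, fun x hx => hx, fun x hx _ => ⟨?_, ?_⟩,
      fun x _ h => h, fun _ _ _ _ => rfl⟩
    · rw [mem_Xnew]
      exact ⟨hx, fun l hl => absurd hl (Finset.notMem_empty l)⟩
    · exact fun i hi => absurd hi (Finset.notMem_empty i)
  | insert l R hl ih =>
    obtain ⟨E, h1, h2, h3, h4, h5⟩ := ih
    obtain ⟨hF, e⟩ := Cube.step hC R (insert l R) l (Finset.subset_univ _) hl rfl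
    have hE := hC.edge R (insert l R) l (Finset.subset_univ _) hl rfl
    refine ⟨(xv (TQ L₀ qv R l) (ioQ L₀ qv R (insert l R) l)).comp E, fun σ x => ?_, fun x hx => ?_,
      fun x hx hpx => ?_, fun x hx h0 => ?_, fun b hb x hx => ?_⟩
    · rw [AddMonoidHom.comp_apply, AddMonoidHom.comp_apply, h1, xvQ_smul]
    · rw [AddMonoidHom.comp_apply, xv_apply]
      have hx' := h2 x hx
      exact AddSubgroup.add_mem _ (AddSubgroup.sub_mem _ (hE.hio 0 _ hx')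
        (hE.hio 1 _ (hE.hT _ hx'))) (hE.hio 2 _ hx')
    · obtain ⟨g1, g2⟩ := h3 x hx fun i hi => hpx i (Finset.mem_insert_of_mem hi)
      have g3 : p ^ nuP p qv l • E x = 0 := by
        rw [← map_nsmul, hpx l (Finset.mem_insert_self l R), map_zero]
      obtain ⟨k1, k2⟩ := hF.xv_mem (E x) g1 g3
      rw [e] at k1
      refine ⟨k1, fun i hi => ?_⟩
      rcases Finset.mem_insert.1 hi with rfl | hi
      · exact k2
      · rw [AddMonoidHom.comp_apply, ← xvQ_smul, g2 i hi]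
    · exact h4 x hx (hE.xv_inj (E x) (h2 x hx) h0)
    · rw [AddMonoidHom.comp_apply, AddMonoidHom.comp_apply, hb R (insert l R) l (E x) hl (h2 x hx).1,
        h5 b hb x hx]

end Top

end PL

open PL

variable {p : ℕ} [Fact p.Prime] {T : Finset ℕ} {θ : ℕ → ℤ} {rbar0 : GQ →* M₂ (ZMod p)}
  {L₀ t n : ℕ} [NeZero L₀] {qv : Fin t → Nat.Primes}

/-- **the base cell with a multiplier**, at the top vertex of the cube. -/
theorem cell_of_cube (EC : MCtx p T θ rbar0) (TC : MTW p T θ L₀ t n qv)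
    {A : Fin t → ValuationSubring Qbar} {τ : Fin t → GQ}
    (hA : ∀ i, (A i).LiesOverPrime ((qv i : Nat.Primes) : ℕ))
    (hτ : ∀ i, τ i ∈ (A i).inertiaSubgroupIn ℚ)
    (hcyc : ∀ i : Fin t, CycOn p (↑(cutS T qv) : Set ℕ) θ ((A i).inertiaSubgroupIn ℚ) (τ i)
      (p ^ (nuP p qv i + 1)) (lvl L₀ (extP qv) t))
    {D a m B : ℕ}
    (hcogen : Nat.card {x : JZero (lev L₀ qv Finset.univ) //
      x ∈ Xnew p (↑(cutS T qv) : Set ℕ) θ L₀ qv Finset.univ ∧ p • x = 0 ∧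
        ∀ i, TWLoc.zop (τ i) x = 0} ≤ p ^ D)
    (ha : 1 ≤ a) (han : a ≤ n)
    (hbox : p ^ (D * a ^ (t + 1)) ≤ Nat.card {x : JZero (lev L₀ qv Finset.univ) //
      x ∈ Xnew p (↑(cutS T qv) : Set ℕ) θ L₀ qv Finset.univ ∧ p ^ a • x = 0 ∧
        ∀ i, (TWLoc.zop (τ i))^[a] x = 0})
    (β : JZero (lev L₀ qv Finset.univ) →+ JZero (lev L₀ qv Finset.univ))
    (hβg : ∀ (σ : GQ) x, β (σ • x) = σ • β x)
    (hβX : ∀ x ∈ Xnew p (↑(cutS T qv) : Set ℕ) θ L₀ qv Finset.univ,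
      β x ∈ Xnew p (↑(cutS T qv) : Set ℕ) θ L₀ qv Finset.univ)
    (x₀ : JZero (lev L₀ qv Finset.univ))
    (hx₀ : x₀ ∈ Xnew p (↑(cutS T qv) : Set ℕ) θ L₀ qv Finset.univ)
    (hp0 : p ^ B • x₀ = 0) (hz0 : ∀ i, TWLoc.zop (τ i) x₀ = 0) (hβ0 : β x₀ ≠ 0)
    (hBa : B ≤ a) (hm : (t + 1) * m + B ≤ a + 1) :
    ∃ G : AddSubgroup (JZero (lvl L₀ (extP qv) t)),
      G ≤ thetaPart (lvl L₀ (extP qv) t) p (↑(cutS T qv) : Set ℕ) θ ∧
      (∀ g : GQ, ∀ x ∈ G, g • x ∈ G) ∧ (∀ x ∈ G, InBox p qv a x) ∧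
      (∀ x ∈ G, ∀ i : Fin t, Tower.IsNewAt (lvl L₀ (extP qv) t) ((qv i : Nat.Primes) : ℕ) x) ∧
      p ^ (m ^ (t + 1)) ≤ Nat.card G ∧
      ∀ x ∈ G, ∃ x₁ ∈ Xnew p (↑(cutS T qv) : Set ℕ) θ L₀ qv Finset.univ,
        p ^ a • x₁ = 0 ∧ x = topJ L₀ qv (β x₁) := by
  classical
  have hp : p.Prime := Fact.out
  set X := Xnew p (↑(cutS T qv) : Set ℕ) θ L₀ qv Finset.univ with hX
  have hlp : ∀ i, ((qv i : Nat.Primes) : ℕ) ≠ p := fun i h => TC.notT i (h ▸ EC.p_mem)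
  -- centrality
  have hcen : ∀ (i : Fin t) (h : GQ) (x : JZero (lev L₀ qv Finset.univ)), p ^ a • x = 0 →
      TWLoc.zop (τ i) (h • x) = h • TWLoc.zop (τ i) x := fun i h x hx =>
    zop_comm_tors EC (cutS T qv) (subset_cutS T qv) (lev L₀ qv Finset.univ)
      (fun r hr hd => TC.mem_cutS_lev Finset.univ hr hd) a
      (fun ζ hζ => inertia_fix_roots (qv i).2 (hlp i) (hA i) (hτ i) a ζ hζ) h x hx
  have hsm0 : ∀ (h : GQ) (x : JZero (lev L₀ qv Finset.univ)) (k : ℕ), k • x = 0 → k • (h • x) = 0 := by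
    intro h x k hx
    have := map_nsmul (DistribSMul.toAddMonoidHom (JZero (lev L₀ qv Finset.univ)) h) k x
    rw [hx, map_zero] at this
    exact this.symm
  set U := boxT p a τ X with hU
  have hUgal : ∀ (g : GQ), ∀ x ∈ U, g • x ∈ U := by
    intro g x hx
    refine ⟨smul_mem_Xnew g hx.1, hsm0 g x _ hx.2.1, fun i => ?_⟩
    rw [zop_iterate_smul (hcen i) a g x hx.2.1, hx.2.2 i]
    exact TWFree.gal_zero _ g
  have hzX : ∀ i, ∀ x ∈ X, TWLoc.zop (τ i) x ∈ X := by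
    intro i x hx
    rw [TWLoc.zop_apply]
    exact X.sub_mem (X.add_mem (smul_mem_Xnew _ hx) (smul_mem_Xnew _ hx)) (X.nsmul_mem hx 2)
  have key := big_sub (J := JZero (lev L₀ qv Finset.univ)) X (t := t) (p := p) (a := a) (D := D) (m := m) (B := B) ha
    (fun i => TWLoc.zop (τ i)) β hzX hβX
    ((finite_torsion_JZero (lev L₀ qv Finset.univ) (p ^ a) (pow_ne_zero _ hp.ne_zero)).subset fun x hx => hx.2)
    (by
      intro i j x _ hx
      rw [TWLoc.zop_apply (τ j) x, map_sub, map_add, hcen i _ x hx, hcen i _ x hx, map_nsmul,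
        TWLoc.zop_apply (τ j)])
    (fun i x _ _ => (zop_map β hβg (τ i) x).symm) hcogen hbox x₀ hx₀ hp0 hz0 hβ0 hBa hm
  set f : JZero (lev L₀ qv Finset.univ) →+ JZero (lvl L₀ (extP qv) t) := (topJ L₀ qv).toAddMonoidHom.comp β with hf
  have hfg : ∀ (g : GQ) x, f (g • x) = g • f x := by
    intro g x
    show topJ L₀ qv (β (g • x)) = g • topJ L₀ qv (β x)
    rw [hβg, topJ_smul]
  have hmem : ∀ x ∈ U.map f, ∃ x₁ ∈ U, x = topJ L₀ qv (β x₁) := by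
    rintro x ⟨x₁, h1, rfl⟩
    exact ⟨x₁, h1, rfl⟩
  have hle : U.map f ≤ thetaPart (lvl L₀ (extP qv) t) p (↑(cutS T qv) : Set ℕ) θ := by
    intro x hx
    obtain ⟨x₁, h1, rfl⟩ := hmem x hx
    exact topJ_mem_thetaPart.2 (Xnew_le _ (hβX x₁ h1.1))
  have hgal : ∀ g : GQ, ∀ x ∈ U.map f, g • x ∈ U.map f := by
    rintro g x ⟨x₁, h1, rfl⟩
    exact ⟨g • x₁, hUgal g x₁ h1, hfg g x₁⟩
  refine ⟨U.map f, hle, hgal, ?_, ?_, ?_, ?_⟩
  · refine inBox_of_cyc hA hcyc (le_nuP_succ_of_le TC han) (U.map f) hle hgal ?_ ?_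
    · rintro x ⟨x₁, h1, rfl⟩
      rw [← map_nsmul, h1.2.1, map_zero]
    · rintro i x ⟨x₁, h1, rfl⟩
      rw [zOp_eq_zop, ← zop_iterate_map f hfg, h1.2.2 i, map_zero]
  · intro x hx i
    obtain ⟨x₁, h1, rfl⟩ := hmem x hx
    rw [isNewAt_topJ]
    exact (mem_newPart_univ_iff.1 (hβX x₁ h1.1)).2 i
  · refine key.trans (le_of_eq (Nat.card_congr ?_))
    refine Equiv.ofBijective (fun y => (⟨topJ L₀ qv y.1, ?_⟩ : U.map f)) ⟨?_, ?_⟩
    · obtain ⟨x, h1, h2, h3, h4⟩ := y.2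
      exact ⟨x, ⟨h1, h2, h3⟩, by rw [← h4]; rfl⟩
    · intro y y' h
      exact Subtype.ext ((topJ L₀ qv).injective (congrArg Subtype.val h))
    · rintro ⟨x, x₁, h1, rfl⟩
      exact ⟨⟨β x₁, x₁, h1.1, h1.2.1, h1.2.2, rfl⟩, rfl⟩
  · intro x hx
    obtain ⟨x₁, h1, rfl⟩ := hmem x hx
    exact ⟨x₁, h1.1, h1.2.1, rfl⟩

/-- **the base cell with a multiplier** : a family `bf Q` of endomorphisms of the vertices of the cube, commuting with `G_ℚ` and with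
`v ↦ x_v`, respecting the multi-new part, and ONE class `v` at the base vertex with `p^B v = 0`, `bf ∅ v ≠ 0`. -/
theorem cell_of_mult (EC : MCtx p T θ rbar0) (TC : MTW p T θ L₀ t n qv) {a m B : ℕ}
    (ha : 1 ≤ a) (h2a : 2 * a ≤ n) (hBa : B ≤ a) (hm : (t + 1) * m + B ≤ a + 1)
    (bf : ∀ Q : Finset (Fin t), JZero (lev L₀ qv Q) →+ JZero (lev L₀ qv Q))
    (hbg : ∀ (σ : GQ) x, bf Finset.univ (σ • x) = σ • bf Finset.univ x)
    (hbxv : ∀ (Q Q' : Finset (Fin t)) (l : Fin t) (v : JZero (lev L₀ qv Q)), l ∉ Q →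
      v ∈ ptors (JZero (lev L₀ qv Q)) p →
      bf Q' (Grow.Hyp.xv (TQ L₀ qv Q l) (ioQ L₀ qv Q Q' l) v) =
        Grow.Hyp.xv (TQ L₀ qv Q l) (ioQ L₀ qv Q Q' l) (bf Q v))
    (hbX : ∀ x ∈ Xnew p (↑(cutS T qv) : Set ℕ) θ L₀ qv Finset.univ,
      bf Finset.univ x ∈ Xnew p (↑(cutS T qv) : Set ℕ) θ L₀ qv Finset.univ)
    (hbθ : ∀ x ∈ thetaPart (lev L₀ qv ∅) p (↑(cutS T qv) : Set ℕ) θ,
      bf ∅ x ∈ thetaPart (lev L₀ qv ∅) p (↑(cutS T qv) : Set ℕ) θ)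
    (v : JZero (lev L₀ qv ∅)) (hv : v ∈ thetaPart (lev L₀ qv ∅) p (↑(cutS T qv) : Set ℕ) θ)
    (hpv : p ^ B • v = 0) (hbv : bf ∅ v ≠ 0) :
    ∃ G : AddSubgroup (JZero (lvl L₀ (extP qv) t)),
      G ≤ thetaPart (lvl L₀ (extP qv) t) p (↑(cutS T qv) : Set ℕ) θ ∧
      (∀ g : GQ, ∀ x ∈ G, g • x ∈ G) ∧ (∀ x ∈ G, InBox p qv a x) ∧
      (∀ x ∈ G, ∀ i : Fin t, Tower.IsNewAt (lvl L₀ (extP qv) t) ((qv i : Nat.Primes) : ℕ) x) ∧
      p ^ (m ^ (t + 1)) ≤ Nat.card G ∧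
      ∀ x ∈ G, ∃ x₁ ∈ Xnew p (↑(cutS T qv) : Set ℕ) θ L₀ qv Finset.univ,
        p ^ a • x₁ = 0 ∧ x = topJ L₀ qv (bf Finset.univ x₁) := by
  obtain ⟨A, τ, hA, hτ, -, hcyc, hC⟩ := exists_isCube_cyc EC TC
  obtain ⟨hcog, hbox⟩ := twfree_of EC TC hA hτ hC
  obtain ⟨E, -, -, e3, e4, e5⟩ := exists_topR hC Finset.univ
  have hν : ∀ i ∈ (Finset.univ : Finset (Fin t)), p ^ nuP p qv i • v = 0 := by
    intro i _
    have h1 : B ≤ nuP p qv i := by
      have := TC.le_nuP i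
      omega
    obtain ⟨c, hc⟩ := Nat.exists_eq_add_of_le h1
    rw [hc, pow_add, mul_comm, mul_smul, hpv, smul_zero]
  obtain ⟨g1, g2⟩ := e3 v hv hν
  refine cell_of_cube EC TC hA hτ hcyc hcog ha (by omega) (hbox a ha (by omega))
    (bf Finset.univ) hbg hbX (E v) g1 (by rw [← map_nsmul, hpv, map_zero]) (fun i => ?_) ?_ hBa hm
  · have h1 := g2 i (Finset.mem_univ i)
    have h2 : (τ i)⁻¹ • E v = E v := by
      conv_lhs => rw [← h1]
      rw [inv_smul_smul]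
    rw [TWLoc.zop_apply, h1, h2, two_nsmul, sub_self]
  · rw [e5 bf hbxv v hv]
    exact fun h0 => hbv (e4 _ (hbθ v hv) h0)

end Fermat.Agent.ML.Lift.Base
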