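import Fermat.Agent.ML.Lift.Base.Pull
import Fermat.Agent.ML.Lift.Base.Maps
import Fermat.Agent.ML.Lift.Base.Plain2
import Fermat.Agent.ML.Lift.Base.Loc
import Fermat.Agent.ML.Lift.Inst.New
import Fermat.Agent.ML.At2.Ctrl.CubeInv
import Fermat.Agent.ML.AtP.MaAtp

/-!
# ML / Lift / Base / PullMain : **(C-BASE)** by the PULL route :  `LowerStmt → BaseCellStmt`

`L₀ = 4M`.  ONE choice of generators `τ i` of the inertia groups at the Taylor-Wiles primes (over the rigid level `4M`) gives the three cubes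
over `4M`, `2M`, `M` (`At2.isCube_two`, `At2.isCube_one'`).  The base cell is `u (Xnew(L')[p^a, z^a])` (`exists_pull`) with

* `rbar0` unramified at `2`, mixed : `L' = M`, `u = d_1^*` (`uOdd`) : good reduction at `2` at the level `M ∏ l²`;
* `rbar0` ramified at `2`, `p = 3` : `L' = 2M`, `u = δ_0^*` (`uTwo`) : semistable reduction at `2` at the level `2M ∏ l²`;
* otherwise : `L' = 4M`, `u = id` : the conditions at `2` hold on the whole `θ`-part (`Plain2`).
-/

set_option autoImplicit false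
set_option linter.unusedSectionVars false
set_option linter.style.haveILetI false

noncomputable section

open AlgebraicCurve ModularCurve

namespace Fermat.Agent.ML.Lift.Base

open Fermat.Agent.RIB Fermat.Agent.GAL Fermat.Agent.GAL.PC Fermat.Agent.ML.TWFree
  Fermat.Agent.ML.ESide

local notation "Qbar" => AlgebraicClosure ℚ
local notation "GQ" => (AlgebraicClosure ℚ ≃ₐ[ℚ] AlgebraicClosure ℚ)
local notation "M₂" => Matrix (Fin 2) (Fin 2)

variable {W : WeierstrassCurve ℤ} {p : ℕ} [Fact p.Prime] {T : Finset ℕ}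
  {b : Module.Basis (Fin 2) (ZMod p) (TorsW W p)} {L₀ : ℕ} [NeZero L₀] {eps : ℕ → ℤ} {eP : GQ → ℤ}

/-- **the base cell**, in a frame with `F = 1`, `C₀ = 0`. -/
theorem cellBig_pull (hLow : LowerStmt) (X : LCtx W p T b L₀ eps eP) {t a m n K : ℕ}
    {qv : Fin t → Nat.Primes}
    (hF : Frm p X.C.hp2 T W.apOfModel (rbarB b) t 1 0 a m n K qv) :
    CellBig p T W.apOfModel (rbarB b) eps eP L₀ qv a m ∅ := by
  classical
  intro Lc _ hLc
  have hp : p.Prime := Fact.out
  obtain ⟨M, hL, hodd, -⟩ := X.BP.shape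
  haveI hM0 : NeZero M := ⟨by
    rintro rfl
    exact NeZero.ne L₀ (by rw [hL, zero_mul])⟩
  have hLcL : Lc = L₀ := by rw [hLc, cellLevel]; simp
  have hLc4 : Lc = M * 4 := hLcL.trans hL
  have hM2 : ¬ 2 ∣ M := fun h => (Nat.not_even_iff_odd.2 hodd) (even_iff_two_dvd.2 h)
  have h22 : M * 2 * 2 = L₀ := by rw [hL]; ring
  have TC : MTW p T W.apOfModel (M * 2 * 2) t n qv :=
    hF.tw _ (fun r hr hd => X.BP.levT r hr (h22 ▸ hd)) ⟨M, by ring⟩
  -- numerics
  have ha1 : 1 ≤ a := by have := hF.ha; omega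
  have hma : m ≤ a := by
    have h1 := hF.ha
    have h2 : m ≤ (t + 1) * m := Nat.le_mul_of_pos_left m (Nat.succ_pos t)
    omega
  have h2a : 2 * a ≤ n + 1 := by have := hF.hn; omega
  have han : a ≤ n := by have := hF.hn; omega
  -- the generators
  obtain ⟨A, τ, hA, hτ, hcyc⟩ := exists_tau_gen X.C TC
  have hgen : At2.GenAt p T W.apOfModel (M * 2 * 2) qv A τ := fun i Q => (hcyc i Q).fixed
  have e4 : lev (M * 2 * 2) qv Finset.univ = lvl Lc (extP qv) t := by
    rw [hLcL, ← h22, lvl_eq_lev]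
  have hcycT : ∀ i, CycOn p (↑(cutS T qv) : Set ℕ) W.apOfModel ((A i).inertiaSubgroupIn ℚ) (τ i)
      (p ^ (nuP p qv i + 1)) (lvl Lc (extP qv) t) := fun i => (hcyc i Finset.univ).cast e4
  have hmemS : ∀ r : ℕ, r.Prime → r ∣ lvl Lc (extP qv) t * p → r ∈ cutS T qv := by
    intro r hr hd
    rw [← e4] at hd
    exact TC.mem_cutS_lev Finset.univ hr hd
  have hS : ∀ r : ℕ, r.Prime → r ∉ (↑(cutS T qv) : Set ℕ) → ¬ r ∣ lvl Lc (extP qv) t * p :=
    fun r hr hrS hd => hrS (Finset.mem_coe.2 (hmemS r hr hd))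
  have h2T : (2 : ℕ) ∈ T :=
    X.BP.levT 2 Nat.prime_two ((hL ▸ (Dvd.intro_left (M * 2) (by ring) : 2 ∣ M * 4)).mul_right p)
  have hne2 : ∀ i, ((qv i : Nat.Primes) : ℕ) ≠ 2 := fun i h => TC.notT i (h ▸ h2T)
  have h2p : (2 : ℕ) ≠ p := fun h => X.C.hp2 h.symm
  -- the common end
  have fin : ∀ G : AddSubgroup (JZero (lvl Lc (extP qv) t)),
      G ≤ thetaPart (lvl Lc (extP qv) t) p (↑(cutS T qv) : Set ℕ) W.apOfModel →
      (∀ g : GQ, ∀ x ∈ G, g • x ∈ G) → (∀ x ∈ G, p ^ a • x = 0) →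
      (∀ i, ∀ x ∈ G, (zOp (τ i))^[a] x = 0) →
      (∀ x ∈ G, ∀ i : Fin t, Tower.IsNewAt (lvl Lc (extP qv) t) ((qv i : Nat.Primes) : ℕ) x) →
      (¬ Ram (rbarB b) 2 → LocUr 2 (G : Set (JZero (lvl Lc (extP qv) t)))) →
      (Ram (rbarB b) 2 → LocUnip 2 (G : Set (JZero (lvl Lc (extP qv) t)))) →
      IsCell p T W.apOfModel (rbarB b) eps eP Lc qv a ∅ G := by
    intro G hle hgal hpa hz hnew hur hun
    have hbox := inBox_of_cyc hA hcycT (le_nuP_succ_of_le TC han) G hle hgal hpa hz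
    exact X.isCell_mk (Finset.empty_subset _) hLc TC.notT G hle hgal hbox hnew
      (fun q hq => absurd hq (Finset.notMem_empty q)) (fun _ h => hur h)
      (fun h => hun (h.resolve_left (Finset.notMem_empty 2)))
      (fun hpLc => X.atp_of_Ma_frm hLow (hLcL ▸ hpLc) (Finset.empty_subset _) Lc hLc hF hle hgal
        hbox)
  -- the plain case
  have plain : (¬ Ram (rbarB b) 2 → LocUr 2 ((thetaPart (lvl Lc (extP qv) t) p
        (↑(cutS T qv) : Set ℕ) W.apOfModel : AddSubgroup _) : Set (JZero (lvl Lc (extP qv) t)))) →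
      (Ram (rbarB b) 2 → LocUnip 2 ((thetaPart (lvl Lc (extP qv) t) p
        (↑(cutS T qv) : Set ℕ) W.apOfModel : AddSubgroup _) : Set (JZero (lvl Lc (extP qv) t)))) →
      ∃ G : AddSubgroup (JZero (lvl Lc (extP qv) t)),
        IsCell p T W.apOfModel (rbarB b) eps eP Lc qv a ∅ G ∧ p ^ (m ^ (t + 1)) ≤ Nat.card G := by
    intro hur hun
    have hC := isCube_of_tau X.C TC A τ hA hτ fun i Q => (hcyc i Q).fixed
    have hW : WS (M * 2 * 2) p (↑(cutS T qv) : Set ℕ) W.apOfModel ≠ ⊥ := by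
      have h1 : WS (M * 2 * 2) p (↑T : Set ℕ) W.apOfModel ≠ ⊥ := by
        have h0 := X.BP.occ
        revert h0
        generalize_proofs
        subst h22
        exact fun h => h
      intro h0
      exact h1 (le_bot_iff.1 (h0 ▸ WS_mono (Finset.coe_subset.2 (subset_cutS T qv))))
    obtain ⟨G, h1, h2, h3, h4, h5, h6⟩ := exists_pull X.C TC.toMTW0 hA hτ hC hW
      (castJ e4).toAddMonoidHom (fun σ x => castJ_smul e4 σ x)
      (fun x _ h0 => (AddEquiv.map_eq_zero_iff (castJ e4)).1 h0)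
      (fun x hx => (castJ_mem_thetaPart e4).2 hx) ha1 h2a hma
    refine ⟨G, fin G h1 h2 h3 h4 ?_ (fun h => (hur h).mono h1) (fun h => (hun h).mono h1), h6⟩
    intro x hx i
    obtain ⟨x₁, hx₁, rfl⟩ := h5 x hx
    exact (isNewAt_castJ e4).2 ((mem_newPart_univ_iff.1 hx₁).2 i)
  by_cases hram : Ram (rbarB b) 2
  · by_cases hp3 : p = 3
    · -- (3r) : the level `2M`
      have TC2 : MTW0 p T W.apOfModel (M * 2) t n qv := TC.toMTW0.of_dvd (Dvd.intro _ rfl)
      have hC := At2.isCube_two X.C TC hA hτ hgen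
      have hW : WS (M * 2) p (↑(cutS T qv) : Set ℕ) W.apOfModel ≠ ⊥ := by
        intro h0
        exact (X.BP.occ2 M hL).2 hram hp3
          (le_bot_iff.1 (h0 ▸ WS_mono (Finset.coe_subset.2 (subset_cutS T qv))))
      obtain ⟨G, h1, h2, h3, h4, h5, h6⟩ := exists_pull X.C TC2 hA hτ hC hW
        (uTwo M qv Lc hLc4) (uTwo_smul hLc4)
        (fun x hx h0 => by
          obtain ⟨k, hk⟩ := hx.1
          exact uTwo_eq_zero hLc4 (pow_ne_zero k hp.ne_zero) hk h0)
        (fun x hx => uTwo_mem_thetaPart hLc4 hS hx) ha1 h2a hma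
      refine ⟨G, fin G h1 h2 h3 h4 ?_ (fun h => absurd hram h) (fun _ => ?_), h6⟩
      · intro x hx i
        obtain ⟨x₁, hx₁, rfl⟩ := h5 x hx
        exact isNewAt_uTwo hLc4 (qv i).2 (hne2 i) ((mem_newPart_univ_iff.1 hx₁).2 i)
      · have hd : 2 ∣ lev (M * 2) qv Finset.univ :=
          (Dvd.intro_left M rfl).trans (dvd_lev_self (M * 2) qv Finset.univ)
        have hnd : ¬ 2 ^ 2 ∣ lev (M * 2) qv Finset.univ := by
          intro h
          rw [lev_mul qv (rfl : M * 2 = M * 2) Finset.univ, pow_two] at h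
          have h' : 2 ∣ lev M qv Finset.univ := Nat.dvd_of_mul_dvd_mul_right (by norm_num) h
          rcases dvd_lev Nat.prime_two h' with h' | ⟨i, -, h'⟩
          · exact hM2 h'
          · exact hne2 i h'.symm
        have h7 := locUnip_uTwo hLc4 (locUnip_of_exact Nat.prime_two hp h2p hd hnd
          ((thetaPart (lev (M * 2) qv Finset.univ) p (↑(cutS T qv) : Set ℕ) W.apOfModel :
            AddSubgroup _) : Set (JZero (lev (M * 2) qv Finset.univ))) (fun x hx => hx.1))
        refine h7.mono fun x hx => ?_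
        obtain ⟨x₁, hx₁, rfl⟩ := h5 x hx
        exact ⟨x₁, Xnew_le _ hx₁, rfl⟩
    · -- (5r)
      exact plain (fun h => absurd hram h) fun _ =>
        locUnip_two_theta X.C (cutS T qv) (subset_cutS T qv) _ hmemS hp3
  · by_cases hmix : Mixed2 (rbarB b)
    · -- the mixed case : the level `M`
      have TC1 : MTW0 p T W.apOfModel M t n qv := TC.toMTW0.of_dvd ⟨2 * 2, by ring⟩
      have hC := At2.isCube_one' X.C TC hM2 hA hτ hgen
      have hW : WS M p (↑(cutS T qv) : Set ℕ) W.apOfModel ≠ ⊥ := by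
        intro h0
        exact (X.BP.occ2 M hL).1 hram hmix
          (le_bot_iff.1 (h0 ▸ WS_mono (Finset.coe_subset.2 (subset_cutS T qv))))
      obtain ⟨G, h1, h2, h3, h4, h5, h6⟩ := exists_pull X.C TC1 hA hτ hC hW
        (uOdd M qv Lc hLc4) (uOdd_smul hLc4)
        (fun x hx h0 => by
          obtain ⟨k, hk⟩ := hx.1
          exact uOdd_eq_zero hLc4 (pow_ne_zero k hp.ne_zero) hk h0)
        (fun x hx => uOdd_mem_thetaPart hLc4 hS hx) ha1 h2a hma
      refine ⟨G, fin G h1 h2 h3 h4 ?_ (fun _ => ?_) (fun h => absurd h hram), h6⟩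
      · intro x hx i
        obtain ⟨x₁, hx₁, rfl⟩ := h5 x hx
        exact isNewAt_uOdd hLc4 (qv i).2 (hne2 i) ((mem_newPart_univ_iff.1 hx₁).2 i)
      · have hnd : ¬ 2 ∣ lev M qv Finset.univ * p := by
          intro h
          rcases (Nat.Prime.dvd_mul Nat.prime_two).1 h with h' | h'
          · rcases dvd_lev Nat.prime_two h' with h' | ⟨i, -, h'⟩
            · exact hM2 h'
            · exact hne2 i h'.symm
          · exact h2p ((Nat.prime_dvd_prime_iff_eq Nat.prime_two hp).1 h')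
        have h7 := locUr_two_uOdd (p := p) hLc4 hnd
          ((thetaPart (lev M qv Finset.univ) p (↑(cutS T qv) : Set ℕ) W.apOfModel :
            AddSubgroup _) : Set (JZero (lev M qv Finset.univ))) (fun x hx => hx.1)
        refine h7.mono fun x hx => ?_
        obtain ⟨x₁, hx₁, rfl⟩ := h5 x hx
        exact ⟨x₁, Xnew_le _ hx₁, rfl⟩
    · -- (5g), (3g)
      exact plain (fun _ => locUr_two_theta X.C (cutS T qv) (subset_cutS T qv) _ hmemS hram hmix)
        fun h => absurd h hram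

/-- **(C-BASE)** by the pull route. -/
theorem baseCellStmt_pull (hLow : LowerStmt) : BaseCellStmt :=
  fun _ _ _ _ _ _ _ _ _ X _ => ⟨1, 0, fun _ _ _ _ _ hF => cellBig_pull hLow X hF⟩

end Fermat.Agent.ML.Lift.Base
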